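import Mathlib
import Fermat.Agent.Lib.GoodRed.Small.GenusZero

/-!
# Cluster B / GoodRed (23): the order of a polynomial in `x` at a place  (helper12)

`ord_aeval_eq` (the MULT lemma of the blueprint): if `0 < ord_v (x - c)` then for every polynomial
`f ≠ 0` over `K`:  `ord_v (f(x)) = rootMultiplicity c f * ord_v (x - c)`.
-/

set_option autoImplicit false

noncomputable section

open AlgebraicCurve Polynomial

namespace Fermat.Agent.GoodRedSmall

variable {K F : Type*} [Field K] [Field F] [Algebra K F]

/-- a polynomial in an element of the valuation ring is in the valuation ring. -/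
theorem aeval_mem_of_mem (v : Place K F) {x : F} (hx : x ∈ v.toValuationSubring) (f : K[X]) :
    Polynomial.aeval x f ∈ v.toValuationSubring := by
  induction f using Polynomial.induction_on' with
  | add p q hp hq =>
    rw [map_add]
    exact add_mem hp hq
  | monomial n a =>
    rw [Polynomial.aeval_monomial]
    exact mul_mem (v.algebraMap_mem' a) (pow_mem hx n)

/-- if `0 < ord_v (x - c)` then `x` is in the valuation ring. -/
theorem mem_of_ord_sub_pos (v : Place K F) {x : F} {c : K}
    (hv : 0 < v.ord (x - algebraMap K F c)) : x ∈ v.toValuationSubring := by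
  have h1 : x - algebraMap K F c ∈ v.toValuationSubring :=
    Fermat.Agent.S24Res.mem_of_ord_nonneg v hv.le
  have h2 := add_mem h1 (v.algebraMap_mem' c)
  rwa [sub_add_cancel] at h2

/-- if `0 < ord_v (x - c)` and `g(c) ≠ 0` then `ord_v (g(x)) = 0`. -/
theorem ord_aeval_eq_zero (v : Place K F) {x : F} {c : K}
    (hv : 0 < v.ord (x - algebraMap K F c)) {g : K[X]} (hg : g.eval c ≠ 0) :
    v.ord (Polynomial.aeval x g) = 0 := by
  obtain ⟨q, hq⟩ := Polynomial.X_sub_C_dvd_sub_C_eval (a := c) (p := g)
  have hx : x ∈ v.toValuationSubring := mem_of_ord_sub_pos v hv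
  have hne : x - algebraMap K F c ≠ 0 := by
    intro h0
    rw [h0, v.ord_zero] at hv
    exact lt_irrefl _ hv
  have hval : Polynomial.aeval x g - algebraMap K F (g.eval c) =
      (x - algebraMap K F c) * Polynomial.aeval x q := by
    have := congrArg (Polynomial.aeval x) hq
    simpa [map_sub, map_mul, Polynomial.aeval_X, Polynomial.aeval_C] using this
  rcases eq_or_ne (Polynomial.aeval x q) 0 with h0 | h0
  · rw [h0, mul_zero, sub_eq_zero] at hval
    rw [hval, ord_const]
  · apply ord_eq_zero_of_sub_pos v hg
    rw [hval, v.ord_mul hne h0]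
    have := Fermat.Agent.S24Res.ord_nonneg_of_mem v (aeval_mem_of_mem v hx q)
    omega

/-- **MULT**: the order of `f(x)` at a zero of `x - c` is `rootMultiplicity c f * ord (x - c)`. -/
theorem ord_aeval_eq (v : Place K F) {x : F} {c : K}
    (hv : 0 < v.ord (x - algebraMap K F c)) {f : K[X]} (hf : f ≠ 0) :
    v.ord (Polynomial.aeval x f) = (f.rootMultiplicity c : ℤ) * v.ord (x - algebraMap K F c) := by
  obtain ⟨g, hfg, hg⟩ := Polynomial.exists_eq_pow_rootMultiplicity_mul_and_not_dvd f hf c
  have hgc : g.eval c ≠ 0 := by
    intro h0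
    exact hg ((Polynomial.dvd_iff_isRoot).mpr h0)
  have hne : x - algebraMap K F c ≠ 0 := by
    intro h0
    rw [h0, v.ord_zero] at hv
    exact lt_irrefl _ hv
  have h0 := ord_aeval_eq_zero v hv hgc
  have hgne : Polynomial.aeval x g ≠ 0 := by
    intro hz
    obtain ⟨q, hq⟩ := Polynomial.X_sub_C_dvd_sub_C_eval (a := c) (p := g)
    have hval : Polynomial.aeval x g - algebraMap K F (g.eval c) =
        (x - algebraMap K F c) * Polynomial.aeval x q := by
      have := congrArg (Polynomial.aeval x) hq
      simpa [map_sub, map_mul, Polynomial.aeval_X, Polynomial.aeval_C] using this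
    rw [hz, zero_sub] at hval
    -- `- g(c) = (x - c) q(x)`: the left side has order `0`, the right side positive order or is `0`
    have hx : x ∈ v.toValuationSubring := mem_of_ord_sub_pos v hv
    have hc' : algebraMap K F (g.eval c) ≠ 0 := by
      rwa [ne_eq, map_eq_zero_iff _ (algebraMap K F).injective]
    have hq0 : Polynomial.aeval x q ≠ 0 := by
      intro hq0
      rw [hq0, mul_zero, neg_eq_zero] at hval
      exact hc' hval
    have h1 : v.ord (-algebraMap K F (g.eval c)) = 0 := by rw [ord_neg', ord_const]
    rw [hval, v.ord_mul hne hq0] at h1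
    have := Fermat.Agent.S24Res.ord_nonneg_of_mem v (aeval_mem_of_mem v hx q)
    omega
  have hpow : (x - algebraMap K F c) ^ f.rootMultiplicity c ≠ 0 := pow_ne_zero _ hne
  have hev : Polynomial.aeval x f =
      (x - algebraMap K F c) ^ f.rootMultiplicity c * Polynomial.aeval x g := by
    have := congrArg (Polynomial.aeval x) hfg
    simpa [map_mul, map_pow, map_sub, Polynomial.aeval_X, Polynomial.aeval_C] using this
  rw [hev, v.ord_mul hpow hgne, h0, add_zero, ord_pow']

end Fermat.Agent.GoodRedSmall
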