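import Mathlib
import Fermat.Agent.Lib.GoodRed.TraceRed
import Fermat.Agent.Lib.GoodRed.Small.Statements

set_option autoImplicit false
set_option linter.unusedSectionVars false
set_option linter.style.haveILetI false

/-!
# Cluster B / GoodRed (23), piece S3: change of the base parameter of a reduction datum

`HauptRel M x' P Q`: `j Q(x') = P(x')` with `P, Q ∈ A[X]`, `P` monic, `deg Q < deg P`, reductions
coprime.  Then
* `swapMem`: `x' ∈ O` and its reduction is transcendental over `k`;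
* `swapDeg`: the degree data pass from `j` to `x'`.
-/

noncomputable section

open Polynomial IntermediateField

namespace Fermat.Agent.GoodRedSmall

open Fermat.Agent.GoodRed

namespace Swap

variable {K k F Fk : Type} [Field K] [Field k] [Field F] [Field Fk] [Algebra K F] [Algebra k Fk]
variable (M : RedModel K k F Fk)

/-- evaluation of polynomials over `A` at an element of `O`. -/
def evAt (y : M.O) : Polynomial M.A →+* M.O := Polynomial.eval₂RingHom M.incl y

theorem coe_evAt (y : M.O) (P : Polynomial M.A) :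
    ((evAt M y P : M.O) : F) = Polynomial.aeval (y : F) (P.map M.A.subtype) := by
  have h : (M.O.subtype.comp (evAt M y) : Polynomial M.A →+* F) =
      ((Polynomial.aeval (y : F) : K[X] →ₐ[K] F).toRingHom.comp
        (Polynomial.mapRingHom M.A.subtype)) := by
    apply Polynomial.ringHom_ext
    · intro a
      simp [evAt]
    · simp [evAt]
  exact congrArg (fun φ : Polynomial M.A →+* F => φ P) h

theorem rho_evAt (y : M.O) (P : Polynomial M.A) :
    M.rho (evAt M y P) = Polynomial.aeval (M.rho y) (P.map M.res) := by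
  have h : (M.rho.comp (evAt M y) : Polynomial M.A →+* Fk) =
      ((Polynomial.aeval (M.rho y) : k[X] →ₐ[k] Fk).toRingHom.comp
        (Polynomial.mapRingHom M.res)) := by
    apply Polynomial.ringHom_ext
    · intro a
      simp [evAt, RedModel.rho_incl]
    · simp [evAt]
  exact congrArg (fun φ : Polynomial M.A →+* Fk => φ P) h

variable {M}

/-- `x' ∈ O`: it is a root of the monic polynomial `P - j Q` over the valuation ring `O`. -/
theorem mem_O {x' : F} {P Q : Polynomial M.A} (h : HauptRel M x' P Q) : x' ∈ M.O := by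
  let jO : M.O := ⟨M.x, M.x_mem⟩
  let R : Polynomial M.O := P.map M.incl - Polynomial.C jO * Q.map M.incl
  have hinj : Function.Injective M.incl := by
    intro a b hab
    have h1 : algebraMap K F a = algebraMap K F b := congrArg Subtype.val hab
    exact Subtype.ext ((algebraMap K F).injective h1)
  have hPmonic : (P.map M.incl).Monic := h.monic.map _
  have hdeg : (Polynomial.C jO * Q.map M.incl).degree < (P.map M.incl).degree := by
    rw [Polynomial.degree_map_eq_of_injective hinj]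
    calc (Polynomial.C jO * Q.map M.incl).degree
        ≤ (Polynomial.C jO).degree + (Q.map M.incl).degree := Polynomial.degree_mul_le _ _
      _ ≤ 0 + Q.degree := by
          gcongr
          · exact Polynomial.degree_C_le
          · exact Polynomial.degree_map_le
      _ = Q.degree := zero_add _
      _ < P.degree := h.deg_lt
  have hRmonic : R.Monic := hPmonic.sub_of_left hdeg
  have hroot : Polynomial.eval₂ (algebraMap M.O F) x' R = 0 := by
    have e1 : ∀ S : Polynomial M.A, Polynomial.eval₂ (algebraMap M.O F) x' (S.map M.incl)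
        = Polynomial.aeval x' (S.map M.A.subtype) := by
      intro S
      rw [Polynomial.eval₂_map, Polynomial.aeval_def, Polynomial.eval₂_map]
      rfl
    simp only [R, Polynomial.eval₂_sub, Polynomial.eval₂_mul, Polynomial.eval₂_C, e1]
    rw [← h.rel]
    show _ - M.x * _ = 0
    ring
  have hint : IsIntegral M.O x' := ⟨R, hRmonic, hroot⟩
  obtain ⟨y, hy⟩ := (IsIntegrallyClosed.isIntegral_iff (R := M.O) (K := F)).mp hint
  rw [← hy]
  exact y.2

/-- the reduced relation `j̄ Q̄(x̄') = P̄(x̄')`. -/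
theorem rho_rel {x' : F} {P Q : Polynomial M.A} (h : HauptRel M x' P Q) (hx : x' ∈ M.O) :
    M.xbar * Polynomial.aeval (M.rho ⟨x', hx⟩) (Q.map M.res)
      = Polynomial.aeval (M.rho ⟨x', hx⟩) (P.map M.res) := by
  have h1 : (⟨M.x, M.x_mem⟩ : M.O) * evAt M ⟨x', hx⟩ Q = evAt M ⟨x', hx⟩ P := by
    apply Subtype.ext
    show M.x * ((evAt M ⟨x', hx⟩ Q : M.O) : F) = ((evAt M ⟨x', hx⟩ P : M.O) : F)
    rw [coe_evAt, coe_evAt]
    exact h.rel
  have h2 := congrArg M.rho h1
  rw [map_mul, rho_evAt, rho_evAt] at h2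
  exact h2

/-- `Q̄(x̄') ≠ 0`. -/
theorem aeval_Q_ne_zero {x' : F} {P Q : Polynomial M.A} (h : HauptRel M x' P Q) (hx : x' ∈ M.O) :
    Polynomial.aeval (M.rho ⟨x', hx⟩) (Q.map M.res) ≠ 0 := by
  intro h0
  have h1 := rho_rel h hx
  rw [h0, mul_zero] at h1
  obtain ⟨a, b, hab⟩ := h.coprime
  have h2 := congrArg (Polynomial.aeval (M.rho ⟨x', hx⟩)) hab
  rw [map_add, map_mul, map_mul, ← h1, h0, mul_zero, mul_zero, add_zero, map_one] at h2
  exact zero_ne_one h2

/-- `j̄ ∈ k(x̄')`. -/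
theorem xbar_mem_adjoin {x' : F} {P Q : Polynomial M.A} (h : HauptRel M x' P Q) (hx : x' ∈ M.O) :
    M.xbar ∈ k⟮M.rho ⟨x', hx⟩⟯ := by
  have h1 := rho_rel h hx
  have h2 := aeval_Q_ne_zero h hx
  have h3 : M.xbar = Polynomial.aeval (M.rho ⟨x', hx⟩) (P.map M.res)
      / Polynomial.aeval (M.rho ⟨x', hx⟩) (Q.map M.res) := by
    rw [eq_div_iff h2]
    exact h1
  rw [h3]
  exact (IntermediateField.mem_adjoin_simple_iff k _).mpr ⟨_, _, rfl⟩

/-- the reduction of `x'` is transcendental. -/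
theorem rho_transcendental {x' : F} {P Q : Polynomial M.A} (h : HauptRel M x' P Q)
    (hx : x' ∈ M.O) : Transcendental k (M.rho ⟨x', hx⟩) := by
  intro halg
  apply M.x_trans
  have h1 : Algebra.IsAlgebraic k k⟮M.rho ⟨x', hx⟩⟯ :=
    IntermediateField.isAlgebraic_adjoin_simple halg.isIntegral
  have h2 := xbar_mem_adjoin h hx
  have h3 : IsAlgebraic k (⟨M.xbar, h2⟩ : k⟮M.rho ⟨x', hx⟩⟯) := Algebra.IsAlgebraic.isAlgebraic _
  have h4 := h3.algebraMap (A := Fk)
  exact h4

/-- `Q(x') ≠ 0`. -/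
theorem aeval_Q_ne_zero' {x' : F} {P Q : Polynomial M.A} (h : HauptRel M x' P Q) :
    Polynomial.aeval x' (Q.map M.A.subtype) ≠ 0 := by
  intro h0
  have hx := mem_O h
  apply aeval_Q_ne_zero h hx
  rw [← rho_evAt]
  have h1 : evAt M ⟨x', hx⟩ Q = 0 := by
    apply Subtype.ext
    rw [coe_evAt]
    exact h0
  rw [h1, map_zero]

/-- `j ∈ K(x')`. -/
theorem x_mem_adjoin {x' : F} {P Q : Polynomial M.A} (h : HauptRel M x' P Q) :
    M.x ∈ K⟮x'⟯ := by
  have h2 := aeval_Q_ne_zero' h
  have h3 : M.x = Polynomial.aeval x' (P.map M.A.subtype)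
      / Polynomial.aeval x' (Q.map M.A.subtype) := by
    rw [eq_div_iff h2]
    exact h.rel
  rw [h3]
  exact (IntermediateField.mem_adjoin_simple_iff K _).mpr ⟨_, _, rfl⟩

end Swap

namespace Swap

section Tower

variable {K F : Type} [Field K] [Field F] [Algebra K F]

/-- `K(j)(x') = K(x')` if `j ∈ K(x')`. -/
theorem restrictScalars_adjoin_adjoin {j x' : F} (hj : j ∈ K⟮x'⟯) :
    (K⟮j⟯⟮x'⟯).restrictScalars K = K⟮x'⟯ := by
  rw [IntermediateField.adjoin_adjoin_left]
  apply le_antisymm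
  · rw [IntermediateField.adjoin_le_iff]
    rintro y (hy | hy)
    · rw [Set.mem_singleton_iff] at hy
      rw [hy]
      exact hj
    · rw [Set.mem_singleton_iff] at hy
      rw [hy]
      exact mem_adjoin_simple_self K x'
  · apply IntermediateField.adjoin.mono
    intro y hy
    exact Or.inr hy

theorem finrank_adjoin_adjoin {j x' : F} (hj : j ∈ K⟮x'⟯) :
    Module.finrank (K⟮j⟯⟮x'⟯) F = Module.finrank K⟮x'⟯ F := by
  have h1 : Module.finrank ((K⟮j⟯⟮x'⟯).restrictScalars K) F = Module.finrank (K⟮j⟯⟮x'⟯) F := rfl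
  rw [← h1, restrictScalars_adjoin_adjoin hj]

theorem finrank_mul_finrank_adjoin {j x' : F} (hj : j ∈ K⟮x'⟯) :
    Module.finrank K⟮j⟯ (K⟮j⟯⟮x'⟯) * Module.finrank K⟮x'⟯ F = Module.finrank K⟮j⟯ F := by
  rw [← finrank_adjoin_adjoin hj]
  exact Module.finrank_mul_finrank K⟮j⟯ (K⟮j⟯⟮x'⟯) F

theorem finiteDimensional_adjoin_of_mem {j x' : F} (hj : j ∈ K⟮x'⟯) [FiniteDimensional K⟮j⟯ F] :
    FiniteDimensional K⟮x'⟯ F := by
  have h1 : FiniteDimensional (K⟮j⟯⟮x'⟯) F := inferInstance
  have h2 : FiniteDimensional ((K⟮j⟯⟮x'⟯).restrictScalars K) F := h1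
  rw [restrictScalars_adjoin_adjoin hj] at h2
  exact h2

theorem isSeparable_adjoin_of_mem {j x' : F} (hj : j ∈ K⟮x'⟯) [Algebra.IsSeparable K⟮j⟯ F] :
    Algebra.IsSeparable K⟮x'⟯ F := by
  have h1 : Algebra.IsSeparable (K⟮j⟯⟮x'⟯) F :=
    Algebra.isSeparable_tower_top_of_isSeparable K⟮j⟯ (K⟮j⟯⟮x'⟯) F
  have h2 : Algebra.IsSeparable ((K⟮j⟯⟮x'⟯).restrictScalars K) F := h1
  rw [restrictScalars_adjoin_adjoin hj] at h2
  exact h2

end Tower

section Ineq

variable {K k F Fk : Type} [Field K] [Field k] [Field F] [Field Fk] [Algebra K F] [Algebra k Fk]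

/-- the residue degree is at most the degree. -/
theorem finrank_red_le (M : RedModel K k F Fk) [FiniteDimensional K⟮M.x⟯ F] :
    Module.finrank k⟮M.xbar⟯ Fk ≤ Module.finrank K⟮M.x⟯ F := by
  obtain ⟨f, hf⟩ := exists_linearIndependent_of_le_finrank
    (le_refl (Module.finrank k⟮M.xbar⟯ Fk))
  choose wO hwO using fun i => M.rho_surj (f i)
  have hind : LinearIndependent k⟮M.xbar⟯ (fun i => M.rho (wO i)) := by
    have : (fun i => M.rho (wO i)) = f := funext hwO
    rw [this]
    exact hf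
  have hlift := M.linearIndependent_lift wO hind
  have := hlift.fintype_card_le_finrank
  simpa using this

/-- the degree of `k(x̄') / k(j̄)` is at most the degree of `K(x') / K(j)`. -/
theorem finrank_adjoin_red_le (M : RedModel K k F Fk) [FiniteDimensional K⟮M.x⟯ F]
    [FiniteDimensional k⟮M.xbar⟯ Fk] (x' : F) (hx : x' ∈ M.O) :
    Module.finrank k⟮M.xbar⟯ (k⟮M.xbar⟯⟮M.rho ⟨x', hx⟩⟯)
      ≤ Module.finrank K⟮M.x⟯ (K⟮M.x⟯⟮x'⟯) := by
  have hint : IsIntegral k⟮M.xbar⟯ (M.rho ⟨x', hx⟩) := Algebra.IsIntegral.isIntegral _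
  rw [IntermediateField.adjoin.finrank hint]
  have hpow := linearIndependent_pow (K := k⟮M.xbar⟯) (M.rho ⟨x', hx⟩)
  set d := (minpoly k⟮M.xbar⟯ (M.rho ⟨x', hx⟩)).natDegree with hd
  let wO : Fin d → M.O := fun i => (⟨x', hx⟩ : M.O) ^ (i : ℕ)
  have hind : LinearIndependent k⟮M.xbar⟯ (fun i => M.rho (wO i)) := by
    have : (fun i => M.rho (wO i)) = fun i : Fin d => (M.rho ⟨x', hx⟩) ^ (i : ℕ) := by
      funext i
      show M.rho ((⟨x', hx⟩ : M.O) ^ (i : ℕ)) = _
      rw [map_pow]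
    rw [this]
    exact hpow
  have hlift := M.linearIndependent_lift wO hind
  let v : Fin d → K⟮M.x⟯⟮x'⟯ := fun i =>
    ⟨x' ^ (i : ℕ), pow_mem (mem_adjoin_simple_self K⟮M.x⟯ x') _⟩
  have hv : LinearIndependent K⟮M.x⟯ v := by
    apply LinearIndependent.of_comp (K⟮M.x⟯⟮x'⟯).val.toLinearMap
    have : (⇑(K⟮M.x⟯⟮x'⟯).val.toLinearMap ∘ v) = fun i => ((wO i : M.O) : F) := by
      funext i
      simp [v, wO]
    rw [this]
    exact hlift
  have := hv.fintype_card_le_finrank
  simpa using this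

end Ineq

end Swap

/-- (S3a) `x'` is in the Gauss ring and its reduction is transcendental. -/
theorem swapMem : SwapMem := by
  intro K k F Fk _ _ _ _ _ _ M x' P Q h
  exact ⟨Swap.mem_O h, Swap.rho_transcendental h _⟩

/-- (S3b) the degree data pass from `j` to `x'`. -/
theorem swapDeg : SwapDeg := by
  intro K k F Fk _ _ _ _ _ _ M n hD x' P Q h hx htr
  have hn := hD.pos
  haveI : FiniteDimensional K⟮M.x⟯ F :=
    Module.finite_of_finrank_pos (by rw [hD.deg]; exact hn)
  haveI : FiniteDimensional k⟮M.xbar⟯ Fk :=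
    Module.finite_of_finrank_pos (by rw [hD.degk]; exact hn)
  haveI := hD.sepk
  have hjK : M.x ∈ K⟮x'⟯ := Swap.x_mem_adjoin h
  have hjk : M.xbar ∈ k⟮M.rho ⟨x', hx⟩⟯ := Swap.xbar_mem_adjoin h hx
  haveI : FiniteDimensional K⟮x'⟯ F := Swap.finiteDimensional_adjoin_of_mem hjK
  have hposK : 0 < Module.finrank K⟮x'⟯ F := Module.finrank_pos
  -- the two tower laws
  have tK := Swap.finrank_mul_finrank_adjoin hjK
  have tk := Swap.finrank_mul_finrank_adjoin hjk
  rw [hD.deg] at tK
  rw [hD.degk] at tk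
  -- the two inequalities
  have i1 : Module.finrank k⟮M.rho ⟨x', hx⟩⟯ Fk ≤ Module.finrank K⟮x'⟯ F := by
    haveI : FiniteDimensional K⟮(swapX M x' hx htr).x⟯ F :=
      Swap.finiteDimensional_adjoin_of_mem hjK
    exact Swap.finrank_red_le (swapX M x' hx htr)
  have i2 := Swap.finrank_adjoin_red_le M x' hx
  have hdegk : Module.finrank k⟮M.rho ⟨x', hx⟩⟯ Fk = Module.finrank K⟮x'⟯ F := by
    set a := Module.finrank K⟮M.x⟯ (K⟮M.x⟯⟮x'⟯)
    set a' := Module.finrank k⟮M.xbar⟯ (k⟮M.xbar⟯⟮M.rho ⟨x', hx⟩⟯)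
    set m := Module.finrank k⟮M.rho ⟨x', hx⟩⟯ Fk
    set n' := Module.finrank K⟮x'⟯ F
    have ha : 0 < a := by
      rcases Nat.eq_zero_or_pos a with h0 | h0
      · rw [h0, zero_mul] at tK
        omega
      · exact h0
    have h1 : a * m ≤ a * n' := Nat.mul_le_mul_left a i1
    have h2 : a' * m ≤ a * m := Nat.mul_le_mul_right m i2
    have h3 : a * m = a * n' := le_antisymm h1 (by rw [tK, ← tk]; exact h2)
    exact Nat.eq_of_mul_eq_mul_left ha h3
  exact
    { deg := rfl
      degk := hdegk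
      sepk := Swap.isSeparable_adjoin_of_mem hjk
      pos := hposK }

end Fermat.Agent.GoodRedSmall
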