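import Mathlib
import Fermat.Agent.Lib.GoodRed.Places
import Fermat.Agent.Lib.GoodRed.Small.Swap

set_option autoImplicit false
set_option linter.unusedSectionVars false
set_option linter.style.haveILetI false

/-!
# Cluster B / GoodRed (23), piece S4: branch data for the Hauptmoduln of `X₀(2)`, `X₀(3)`

`branchT2 N : UnramT2 N → BranchT2 N` and `branchT3 N : UnramT3 N → BranchT3 N`:
from the reduction datum with `x = j` and the relation `j x² = (x + 256)³`
(resp. `j x³ = (x + 27)(x + 243)³`), the reduction datum with base parameter `x`, its degree data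
(`swapDeg`) and the branch data `S = {0, -64}` (resp. `{0, -27}`).
-/

noncomputable section

open Polynomial IntermediateField AlgebraicCurve

namespace Fermat.Agent.GoodRedSmall

open Fermat.Agent.GoodRed Fermat.Agent.S24

namespace Branch

variable {K k F Fk : Type} [Field K] [Field k] [Field F] [Field Fk] [Algebra K F] [Algebra k Fk]
variable (M : RedModel K k F Fk)

/-- natural numbers in `A` reduce to natural numbers. -/
theorem res_natCast (m : ℕ) : M.res (m : M.A) = (m : k) := map_natCast M.res m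

theorem coe_natCast_A (m : ℕ) : (((m : M.A) : K)) = (m : K) := rfl

/-- generic branch data from a fibre count outside a two element set `{0, -c₀}`. -/
theorem exists_branchData [IsAlgClosed K] [CharZero K] (n : ℕ) (hD : DegData M n) (c₀ : ℕ)
    (hc₀ : (c₀ : k) ≠ 0)
    (hun : ∀ c : K, c ≠ 0 → c ≠ -(c₀ : K) →
      Nat.card {v : Place K F // 0 < v.ord (M.x - algebraMap K F c)} = n) :
    ∃ BD : BranchData M n, ∀ c : K, c ∈ BD.S ↔ c = 0 ∨ c = -(c₀ : K) := by
  classical
  haveI : FiniteDimensional K⟮M.x⟯ F :=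
    Module.finite_of_finrank_pos (by rw [hD.deg]; exact hD.pos)
  have hc₀K : (c₀ : K) ≠ 0 := by
    intro h
    apply hc₀
    have h1 : c₀ = 0 := by exact_mod_cast h
    rw [h1]; simp
  have hmem0 : (0 : K) ∈ M.A := M.A.zero_mem
  have hmemc : -(c₀ : K) ∈ M.A := M.A.neg_mem _ (natCast_mem M.A c₀)
  have hres0 : ∀ h : (0 : K) ∈ M.A, M.res ⟨0, h⟩ = 0 := fun h => map_zero M.res
  have hresc : ∀ h : -(c₀ : K) ∈ M.A, M.res ⟨-(c₀ : K), h⟩ = -(c₀ : k) := by
    intro h
    have : (⟨-(c₀ : K), h⟩ : M.A) = -((c₀ : ℕ) : M.A) := by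
      apply Subtype.ext
      simp
    rw [this, map_neg, map_natCast]
  refine ⟨{ S := {0, -(c₀ : K)}
            S_mem := ?_
            S_inj := ?_
            unram := ?_ }, ?_⟩
  · intro c hc
    rw [Finset.mem_insert, Finset.mem_singleton] at hc
    rcases hc with rfl | rfl
    · exact hmem0
    · exact hmemc
  · intro c hc c' hc' hcA hc'A hres
    rw [Finset.mem_insert, Finset.mem_singleton] at hc hc'
    rcases hc with rfl | rfl <;> rcases hc' with rfl | rfl
    · rfl
    · exfalso
      rw [hres0, hresc] at hres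
      exact hc₀ (neg_eq_zero.mp hres.symm)
    · exfalso
      rw [hres0, hresc] at hres
      exact hc₀ (neg_eq_zero.mp hres)
    · rfl
  · intro c hc
    rw [Finset.mem_insert, Finset.mem_singleton, not_or] at hc
    rw [fibreCard_eq_card_zeros M.x_transcendental c]
    exact hun c hc.1 hc.2
  · intro c
    simp

theorem algebraMap_coe_ofNat (m : ℕ) [m.AtLeastTwo] :
    algebraMap K F (M.A.subtype (OfNat.ofNat m : M.A)) = OfNat.ofNat m := by
  have h : M.A.subtype (OfNat.ofNat m : M.A) = (OfNat.ofNat m : K) := rfl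
  rw [h, map_ofNat]

/-- `X + a` and `X` are coprime if `a ≠ 0`. -/
theorem isCoprime_X_add_C_X {a : k} (ha : a ≠ 0) :
    IsCoprime (Polynomial.X + Polynomial.C a : k[X]) Polynomial.X := by
  refine ⟨Polynomial.C a⁻¹, -Polynomial.C a⁻¹, ?_⟩
  have h1 : Polynomial.C a⁻¹ * Polynomial.C a = (1 : k[X]) := by
    rw [← Polynomial.C_mul, inv_mul_cancel₀ ha, Polynomial.C_1]
  calc Polynomial.C a⁻¹ * (Polynomial.X + Polynomial.C a) + -Polynomial.C a⁻¹ * Polynomial.X
      = Polynomial.C a⁻¹ * Polynomial.C a := by ring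
    _ = 1 := h1

/-- the relation `j x² = (x + 256)³` as a `HauptRel`. -/
theorem hauptRel_T2 (h2 : (2 : k) ≠ 0) {x : F} (hT : M.x * x ^ 2 = (x + 256) ^ 3) :
    HauptRel M x ((Polynomial.X + Polynomial.C (256 : M.A)) ^ 3) (Polynomial.X ^ 2) := by
  have h256 : (256 : k) ≠ 0 := by
    have : (256 : k) = 2 ^ 8 := by norm_num
    rw [this]
    exact pow_ne_zero _ h2
  refine ⟨(Polynomial.monic_X_add_C _).pow 3, ?_, ?_, ?_⟩
  · rw [Polynomial.degree_X_pow, Polynomial.degree_pow, Polynomial.degree_X_add_C]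
    norm_num
  · simp only [Polynomial.map_pow, Polynomial.map_add, Polynomial.map_X, Polynomial.map_C,
      map_pow, map_add, Polynomial.aeval_X, Polynomial.aeval_C]
    rw [hT, algebraMap_coe_ofNat]
  · simp only [Polynomial.map_pow, Polynomial.map_add, Polynomial.map_X, Polynomial.map_C]
    apply IsCoprime.pow
    have : M.res (256 : M.A) = (256 : k) := map_ofNat M.res 256
    rw [this]
    exact isCoprime_X_add_C_X h256

/-- the relation `j x³ = (x + 27)(x + 243)³` as a `HauptRel`. -/
theorem hauptRel_T3 (h3 : (3 : k) ≠ 0) {x : F} (hT : M.x * x ^ 3 = (x + 27) * (x + 243) ^ 3) :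
    HauptRel M x ((Polynomial.X + Polynomial.C (27 : M.A)) *
      (Polynomial.X + Polynomial.C (243 : M.A)) ^ 3) (Polynomial.X ^ 3) := by
  have h27 : (27 : k) ≠ 0 := by
    have : (27 : k) = 3 ^ 3 := by norm_num
    rw [this]
    exact pow_ne_zero _ h3
  have h243 : (243 : k) ≠ 0 := by
    have : (243 : k) = 3 ^ 5 := by norm_num
    rw [this]
    exact pow_ne_zero _ h3
  refine ⟨(Polynomial.monic_X_add_C _).mul ((Polynomial.monic_X_add_C _).pow 3), ?_, ?_, ?_⟩
  · rw [Polynomial.degree_X_pow, Polynomial.degree_mul, Polynomial.degree_pow,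
      Polynomial.degree_X_add_C, Polynomial.degree_X_add_C]
    norm_num
  · simp only [Polynomial.map_pow, Polynomial.map_add, Polynomial.map_X, Polynomial.map_C,
      Polynomial.map_mul, map_mul, map_pow, map_add, Polynomial.aeval_X, Polynomial.aeval_C]
    rw [hT, algebraMap_coe_ofNat, algebraMap_coe_ofNat]
  · simp only [Polynomial.map_pow, Polynomial.map_add, Polynomial.map_X, Polynomial.map_C,
      Polynomial.map_mul]
    have e27 : M.res (27 : M.A) = (27 : k) := map_ofNat M.res 27
    have e243 : M.res (243 : M.A) = (243 : k) := map_ofNat M.res 243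
    rw [e27, e243]
    exact IsCoprime.mul_left ((isCoprime_X_add_C_X h27).pow_right)
      (IsCoprime.pow (isCoprime_X_add_C_X h243))

end Branch

/-- (S4) branch data for the Hauptmodul of `X₀(2)`. -/
theorem branchT2 (N : ℕ) [NeZero N] : UnramT2 N → BranchT2 N := by
  intro hU k Fk _ _ _ _ M n hMx hD h2 x hT
  have hT' : M.x * x ^ 2 = (x + 256) ^ 3 := by rw [hMx]; exact hT
  have hrel := Branch.hauptRel_T2 M h2 hT'
  obtain ⟨hx, htr⟩ := swapMem _ _ _ _ M x _ _ hrel
  have hD' := swapDeg _ _ _ _ M n hD x _ _ hrel hx htr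
  refine ⟨hx, htr, _, hD', ?_⟩
  have h64 : ((64 : ℕ) : k) ≠ 0 := by
    have : ((64 : ℕ) : k) = 2 ^ 6 := by norm_num
    rw [this]
    exact pow_ne_zero _ h2
  obtain ⟨BD, hBD⟩ := Branch.exists_branchData (swapX M x hx htr) _ hD' 64 h64 (by
    intro c hc0 hc64
    refine hU x hT c hc0 ?_
    intro h
    apply hc64
    rw [h]
    norm_num)
  refine ⟨BD, fun c => ?_⟩
  rw [hBD c]
  norm_num

/-- (S4) branch data for the Hauptmodul of `X₀(3)`. -/
theorem branchT3 (N : ℕ) [NeZero N] : UnramT3 N → BranchT3 N := by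
  intro hU k Fk _ _ _ _ M n hMx hD h3 x hT
  have hT' : M.x * x ^ 3 = (x + 27) * (x + 243) ^ 3 := by rw [hMx]; exact hT
  have hrel := Branch.hauptRel_T3 M h3 hT'
  obtain ⟨hx, htr⟩ := swapMem _ _ _ _ M x _ _ hrel
  have hD' := swapDeg _ _ _ _ M n hD x _ _ hrel hx htr
  refine ⟨hx, htr, _, hD', ?_⟩
  have h27 : ((27 : ℕ) : k) ≠ 0 := by
    have : ((27 : ℕ) : k) = 3 ^ 3 := by norm_num
    rw [this]
    exact pow_ne_zero _ h3
  obtain ⟨BD, hBD⟩ := Branch.exists_branchData (swapX M x hx htr) _ hD' 27 h27 (by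
    intro c hc0 hc27
    refine hU x hT c hc0 ?_
    intro h
    apply hc27
    rw [h]
    norm_num)
  refine ⟨BD, fun c => ?_⟩
  rw [hBD c]
  norm_num

end Fermat.Agent.GoodRedSmall
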