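import Mathlib
import Fermat.Agent.Lib.GoodRed.Small.GenusZero

/-!
# Cluster B / GoodRed (23), S1.2 core (helper36): rigidity of the Hauptmodul of `X₀(2)`

Generic statement (any `IsRRField K F`, `char K = 0`): a function field of genus `0` with a
function `j` of degree `3` whose fibres are
  `(3)` over `0`,  `(2, ·)` over `1728`,  `(1, 2)` over `∞`
has a coordinate `y` with `j y² = (y + 256)³`.

* `h2_taylor`               : first two Taylor coefficients at a place vanish if the order is `≥ 2`;
* `exists_haupt2_of_fibres` : the rigidity statement.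
-/

set_option autoImplicit false

noncomputable section

open AlgebraicCurve

namespace Fermat.Agent.GoodRedSmall

open Fermat.Agent.RR

variable {K F : Type*} [Field K] [Field F] [Algebra K F]

/-- the valuation of a function of order `n` is `exp (-n)`. -/
theorem h2_val_eq_of_ord (v : Place K F) {f : F} (hf : f ≠ 0) :
    v.adicValuation f = WithZero.exp (-v.ord f) :=
  v.adicValuation_eq_exp_neg_ord hf

/-- Taylor coefficients: if `w = α + β t + t² s` with `ord_v t = 1`, `s` regular at `v`, and
`w` vanishes to order `≥ 2` at `v`, then `α = β = 0`. -/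
theorem h2_taylor (v : Place K F) {t s w : F} {α β : K} (ht : v.ord t = 1)
    (hs : v.adicValuation s ≤ 1) (hw : v.adicValuation w ≤ WithZero.exp (-2))
    (hexp : w = algebraMap K F α + algebraMap K F β * t + t ^ 2 * s) : α = 0 ∧ β = 0 := by
  have ht0 : t ≠ 0 := by
    rintro rfl
    rw [v.ord_zero] at ht
    omega
  have hVt : v.adicValuation t = WithZero.exp (-1) := by
    rw [h2_val_eq_of_ord v ht0, ht]
  have hexp21 : (WithZero.exp (-2 : ℤ) : WithZero (Multiplicative ℤ)) ≤ WithZero.exp (-1) :=
    WithZero.exp_le_exp.mpr (by norm_num)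
  have hexp10 : (WithZero.exp (-1 : ℤ) : WithZero (Multiplicative ℤ)) ≤ 1 := by
    rw [← WithZero.exp_zero]
    exact WithZero.exp_le_exp.mpr (by norm_num)
  -- `t² s` has valuation `≤ exp (-2)`
  have hVt2s : v.adicValuation (t ^ 2 * s) ≤ WithZero.exp (-2) := by
    rw [map_mul, map_pow, hVt, ← WithZero.exp_nsmul]
    have : (2 • (-1 : ℤ)) = -2 := by norm_num
    rw [this]
    exact mul_le_of_le_one_right' hs
  -- `β t` has valuation `≤ exp (-1)`
  have hVβt : v.adicValuation (algebraMap K F β * t) ≤ WithZero.exp (-1) := by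
    rw [map_mul, hVt]
    exact mul_le_of_le_one_left' (v.adicValuation_algebraMap_le_one β)
  have hα : α = 0 := by
    by_contra hα0
    have hα' : algebraMap K F α ≠ 0 := by
      rwa [ne_eq, map_eq_zero_iff _ (algebraMap K F).injective]
    have h1 : algebraMap K F α = w - algebraMap K F β * t - t ^ 2 * s := by
      rw [hexp]; ring
    have h2 : v.adicValuation (algebraMap K F α) ≤ WithZero.exp (-1) := by
      rw [h1]
      refine (Valuation.map_sub _ _ _).trans (max_le ?_ (hVt2s.trans hexp21))
      exact (Valuation.map_sub _ _ _).trans (max_le (hw.trans hexp21) hVβt)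
    rw [h2_val_eq_of_ord v hα', ord_const, neg_zero, WithZero.exp_le_exp] at h2
    omega
  refine ⟨hα, ?_⟩
  by_contra hβ0
  have hβ' : algebraMap K F β ≠ 0 := by
    rwa [ne_eq, map_eq_zero_iff _ (algebraMap K F).injective]
  have h1 : algebraMap K F β * t = w - t ^ 2 * s := by
    rw [hexp, hα, map_zero]; ring
  have h2 : v.adicValuation (algebraMap K F β * t) ≤ WithZero.exp (-2) := by
    rw [h1]
    exact (Valuation.map_sub _ _ _).trans (max_le hw hVt2s)
  rw [h2_val_eq_of_ord v (mul_ne_zero hβ' ht0), v.ord_mul hβ' ht0, ord_const, ht,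
    WithZero.exp_le_exp] at h2
  omega

/-- **Rigidity of the Hauptmodul of `X₀(2)`.**  Genus `0`, `j` with divisor
`3 P₀ - Q∞ - 2 Q₀` and a double zero of `j - 1728` at `R`: there is `y` with
`j y² = (y + 256)³`. -/
theorem exists_haupt2_of_fibres [CharZero K] (h : IsRRField K F) (hg : genusFF K F = 0)
    (j : F) (Qinf Q0 P0 R : Place K F)
    (hQinf : Qinf.ord j = -1) (hQ0 : Q0.ord j = -2)
    (hpoles : ∀ v : Place K F, v.ord j < 0 → v = Qinf ∨ v = Q0)
    (hP0 : P0.ord j = 3) (hzeros : ∀ v : Place K F, 0 < v.ord j → v = P0)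
    (hR : R.ord (j - algebraMap K F 1728) = 2) :
    ∃ y : F, j * y ^ 2 = (y + 256) ^ 3 := by
  classical
  have hj0 : j ≠ 0 := by
    rintro rfl
    rw [Place.ord_zero] at hP0
    omega
  have hQne : Q0 ≠ Qinf := by
    rintro rfl
    omega
  have hP0Qinf : P0 ≠ Qinf := by
    rintro rfl
    omega
  have hP0Q0 : P0 ≠ Q0 := by
    rintro rfl
    omega
  have h1728 : algebraMap K F 1728 ≠ 0 := by
    rw [ne_eq, map_eq_zero_iff _ (algebraMap K F).injective]
    norm_num
  have hj1728 : j - algebraMap K F 1728 ≠ 0 := by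
    intro h0
    rw [h0, Place.ord_zero] at hR
    omega
  -- `R` is not a pole of `j`
  have hRnotpole : ¬ R.ord j < 0 := by
    intro hlt
    have := ord_add_eq_of_lt R hj0 (neg_ne_zero.mpr h1728)
      (by rw [ord_neg', ord_const]; exact hlt)
    rw [← sub_eq_add_neg] at this
    omega
  have hRQinf : R ≠ Qinf := by
    rintro rfl
    exact hRnotpole (by omega)
  have hRQ0 : R ≠ Q0 := by
    rintro rfl
    exact hRnotpole (by omega)
  -- the coordinate `x` with divisor `Q₀ - Q∞`
  obtain ⟨x, hx, hxQ0, hxother⟩ := exists_coordinate h hg hQne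
  have hx0 := hx.ne_zero
  have hxP0 : P0.ord x = 0 := hxother P0 hP0Q0 hP0Qinf
  have hxR : R.ord x = 0 := hxother R hRQ0 hRQinf
  -- the values `a = x(P₀)`, `b = x(R)`
  obtain ⟨a, ha⟩ := hx.exists_value h hP0Qinf
  obtain ⟨b, hb⟩ := hx.exists_value h hRQinf
  have ha0 : a ≠ 0 := by
    rintro rfl
    rw [map_zero, sub_zero] at ha
    omega
  have hb0 : b ≠ 0 := by
    rintro rfl
    rw [map_zero, sub_zero] at hb
    omega
  have hxa := hx.sub_const a
  have hxa_ne := hx.sub_ne_zero a
  have hxa_other : ∀ v : Place K F, v ≠ P0 → v ≠ Qinf →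
      v.ord (x - algebraMap K F a) = 0 := by
    intro v hvP hvQ
    have h0 := hxa.ord_nonneg v hvQ
    rcases h0.lt_or_eq with hpos | heq
    · exact absurd ((hx.ord_sub_eq_one h (R := P0) (by rw [ha]; norm_num)).2 v hpos) hvP
    · exact heq.symm
  have hj_other : ∀ v : Place K F, v ≠ P0 → v ≠ Qinf → v ≠ Q0 → v.ord j = 0 := by
    intro v hvP hvQi hvQ0
    rcases lt_trichotomy (v.ord j) 0 with hlt | heq | hgt
    · rcases hpoles v hlt with h1 | h1
      · exact absurd h1 hvQi
      · exact absurd h1 hvQ0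
    · exact heq
    · exact absurd (hzeros v hgt) hvP
  -- `u = j x² / (x - a)³` is a constant `c`
  have hu0 : j * x ^ 2 * ((x - algebraMap K F a) ^ 3)⁻¹ ≠ 0 :=
    mul_ne_zero (mul_ne_zero hj0 (pow_ne_zero 2 hx0)) (inv_ne_zero (pow_ne_zero 3 hxa_ne))
  have hord_u : ∀ v : Place K F, v.ord (j * x ^ 2 * ((x - algebraMap K F a) ^ 3)⁻¹) =
      v.ord j + 2 * v.ord x - 3 * v.ord (x - algebraMap K F a) := by
    intro v
    rw [v.ord_mul (mul_ne_zero hj0 (pow_ne_zero 2 hx0)) (inv_ne_zero (pow_ne_zero 3 hxa_ne)),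
      v.ord_mul hj0 (pow_ne_zero 2 hx0), v.ord_inv, ord_pow', ord_pow']
    push_cast
    ring
  have hu_zero : ∀ v : Place K F, v.ord (j * x ^ 2 * ((x - algebraMap K F a) ^ 3)⁻¹) = 0 := by
    intro v
    rw [hord_u]
    by_cases hvQi : v = Qinf
    · subst hvQi
      rw [hQinf, hx.ord_pole, hxa.ord_pole]
      norm_num
    by_cases hvQ0 : v = Q0
    · subst hvQ0
      rw [hQ0, hxQ0, hxa_other _ (Ne.symm hP0Q0) hvQi]
      norm_num
    by_cases hvP : v = P0
    · subst hvP
      rw [hP0, hxP0, ha]
      norm_num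
    · rw [hj_other v hvP hvQi hvQ0, hxother v hvQ0 hvQi, hxa_other v hvP hvQi]
      norm_num
  obtain ⟨c, hc0, huc⟩ := eq_algebraMap_of_ord_eq_zero h hu0 hu_zero
  have hrel : j * x ^ 2 = algebraMap K F c * (x - algebraMap K F a) ^ 3 := by
    rw [← huc]
    field_simp
  -- Taylor expansion of `(j - 1728) x²` at `R`, in the uniformiser `t = x - b`
  have ht1 : R.ord (x - algebraMap K F b) = 1 := hb
  have ht0 : x - algebraMap K F b ≠ 0 := hx.sub_ne_zero b
  have hVt : R.adicValuation (x - algebraMap K F b) = WithZero.exp (-1) := by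
    rw [h2_val_eq_of_ord R ht0, ht1]
  have hexp : (j - algebraMap K F 1728) * x ^ 2 =
      algebraMap K F (c * (b - a) ^ 3 - 1728 * b ^ 2) +
        algebraMap K F (3 * c * (b - a) ^ 2 - 3456 * b) * (x - algebraMap K F b) +
        (x - algebraMap K F b) ^ 2 *
          (algebraMap K F (3 * c * (b - a) - 1728) +
            algebraMap K F c * (x - algebraMap K F b)) := by
    rw [sub_mul, hrel]
    simp only [map_sub, map_mul, map_pow, map_ofNat]
    ring
  have hsV : R.adicValuation (algebraMap K F (3 * c * (b - a) - 1728) +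
      algebraMap K F c * (x - algebraMap K F b)) ≤ 1 := by
    refine (Valuation.map_add _ _ _).trans (max_le (R.adicValuation_algebraMap_le_one _) ?_)
    rw [map_mul, hVt]
    refine (mul_le_of_le_one_left' (R.adicValuation_algebraMap_le_one c)).trans ?_
    rw [← WithZero.exp_zero]
    exact WithZero.exp_le_exp.mpr (by norm_num)
  have hwV : R.adicValuation ((j - algebraMap K F 1728) * x ^ 2) ≤ WithZero.exp (-2) := by
    rw [h2_val_eq_of_ord R (mul_ne_zero hj1728 (pow_ne_zero 2 hx0)),
      R.ord_mul hj1728 (pow_ne_zero 2 hx0), hR, ord_pow', hxR, WithZero.exp_le_exp]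
    norm_num
  obtain ⟨hα0, hβ0⟩ := h2_taylor R ht1 hsV hwV hexp
  -- the algebra: `b = -2a`, `c a = -256`
  have hb2a : b = -2 * a := by
    have h1 : (1728 : K) * (b * (b + 2 * a)) = 0 := by
      linear_combination (-3 : K) * hα0 + (b - a) * hβ0
    rcases mul_eq_zero.mp h1 with h2 | h2
    · norm_num at h2
    · rcases mul_eq_zero.mp h2 with h3 | h3
      · exact absurd h3 hb0
      · linear_combination h3
  have hca : c * a = -256 := by
    have h1 : (27 : K) * a * (c * a + 256) = 0 := by
      rw [hb2a] at hβ0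
      linear_combination hβ0
    rcases mul_eq_zero.mp h1 with h2 | h2
    · rcases mul_eq_zero.mp h2 with h3 | h3
      · norm_num at h3
      · exact absurd h3 ha0
    · linear_combination h2
  -- the normalised coordinate `y = c x`
  refine ⟨algebraMap K F c * x, ?_⟩
  have hcaF : algebraMap K F c * algebraMap K F a = -256 := by
    rw [← map_mul, hca, map_neg, map_ofNat]
  have h256 : (256 : F) = -(algebraMap K F c * algebraMap K F a) := by
    rw [hcaF, neg_neg]
  rw [h256]
  linear_combination (algebraMap K F c) ^ 2 * hrel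

end Fermat.Agent.GoodRedSmall
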