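import Mathlib
import Fermat.Agent.Lib.GoodRed.Small.Statements
import Fermat.Agent.Lib.GoodRed.Small.Haupt2Core
import Fermat.Agent.Lib.GoodRed.ModularBranch
import Fermat.Agent.Lib.GenusEq.GenusFM

/-!
# Cluster B / GoodRed (23), S1.2 (helper36): the Hauptmodul of `X₀(2)` exists

`existsT2 : ExistsT2`, i.e. there is `x ∈ F_2 = ℚ̄(X₀(2))` with `j x² = (x + 256)³`.
UNCONDITIONAL (neither `OrdDvd 2` nor `SimplePole 2` is needed: the fibres of `j` over
`0, 1728, ∞` have `1, 2, 2` places and total multiplicity `3`, which forces the ramification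
types `(3)`, `(1,2)`, `(1,2)`).

Inputs: S24 fibre counts (`GoodRedBranch.fibre_package`, `S24.Comb`), the fundamental identity
(`S24Fund.sum_ord_zeros / sum_ord_poles`), genus `0` (`GenusEq.genusFF_modularFunctionFieldBar`),
Riemann's inequality (`Lib/RR`), and the rigidity computation of `Haupt2Core.lean`.
-/

set_option autoImplicit false

noncomputable section

open AlgebraicCurve IntermediateField

namespace Fermat.Agent.GoodRedSmall

open Fermat.Agent.S24 Fermat.Agent.RR

/-! ### numerics at level `2` -/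

theorem h2_dedekindPsi_two : ModularCurve.dedekindPsi 2 = 3 := by
  have hd : Nat.divisors 2 = {1, 2} := by decide
  have h2 : Squarefree (2 : ℕ) := Nat.prime_two.squarefree
  rw [ModularCurve.dedekindPsi, hd, Finset.filter_insert, if_pos squarefree_one,
    Finset.filter_singleton, if_pos h2, Finset.sum_insert (by decide), Finset.sum_singleton]

theorem h2_cuspCount_two : ModularCurve.cuspCount 2 = 2 := by decide

theorem h2_nuTwo_two : ModularCurve.nuTwo 2 = 1 := by
  unfold ModularCurve.nuTwo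
  rw [Nat.card_eq_fintype_card]
  decide

theorem h2_nuThree_two : ModularCurve.nuThree 2 = 0 := by
  unfold ModularCurve.nuThree
  rw [Nat.card_eq_fintype_card]
  decide

theorem h2_genusFormula_two : ModularCurve.genusFormula 2 = 0 := by
  rw [ModularCurve.genusFormula, h2_dedekindPsi_two, h2_nuTwo_two, h2_nuThree_two,
    h2_cuspCount_two]
  norm_num

/-! ### finite sets with a prescribed weighted count -/

theorem h2_pair_of_card_sum {α : Type*} [DecidableEq α] (s : Finset α) (f : α → ℤ)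
    (hcard : s.card = 2) (hpos : ∀ v ∈ s, 0 < f v) (hsum : ∑ v ∈ s, f v = 3) :
    ∃ v₁ v₂, v₁ ≠ v₂ ∧ (∀ v, v ∈ s ↔ v = v₁ ∨ v = v₂) ∧ f v₁ = 1 ∧ f v₂ = 2 := by
  obtain ⟨x, y, hxy, rfl⟩ := Finset.card_eq_two.mp hcard
  rw [Finset.sum_pair hxy] at hsum
  have hx := hpos x (by simp)
  have hy := hpos y (by simp)
  have hcases : (f x = 1 ∧ f y = 2) ∨ (f x = 2 ∧ f y = 1) := by omega
  rcases hcases with ⟨h1, h2⟩ | ⟨h1, h2⟩
  · exact ⟨x, y, hxy, fun v => by simp, h1, h2⟩
  · exact ⟨y, x, hxy.symm, fun v => by simp [or_comm], h2, h1⟩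

theorem h2_single_of_card_sum {α : Type*} (s : Finset α) (f : α → ℤ) (n : ℤ)
    (hcard : s.card = 1) (hsum : ∑ v ∈ s, f v = n) :
    ∃ v₁, (∀ v, v ∈ s ↔ v = v₁) ∧ f v₁ = n := by
  obtain ⟨x, rfl⟩ := Finset.card_eq_one.mp hcard
  rw [Finset.sum_singleton] at hsum
  exact ⟨x, fun v => by simp, hsum⟩

/-! ### the Hauptmodul -/

set_option synthInstance.maxHeartbeats 400000 in
set_option maxHeartbeats 1000000 in
/-- **(S1.2)** the Hauptmodul of `X₀(2)`: there is `x ∈ ℚ̄(X₀(2))` with `j x² = (x + 256)³`. -/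
theorem existsT2 : ExistsT2 := by
  classical
  have hFF := isFunctionFieldOver_jBar 2
  have htr : Transcendental Kbar (jBar 2) := hFF.transcendental
  have hRR := Fermat.Agent.GenusEq.isRRField_modularFunctionFieldBar 2
  have hg : genusFF Kbar (FBar 2) = 0 := by
    have h1 := Fermat.Agent.GenusEq.genusFF_modularFunctionFieldBar 2
    rw [h2_genusFormula_two] at h1
    exact_mod_cast h1
  have hdeg : Module.finrank Kbar⟮jBar 2⟯ (FBar 2) = 3 := by
    rw [Fermat.Agent.GoodRedBranch.finrank_jBar, index_Gamma0, h2_dedekindPsi_two]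
  -- the poles of `j`
  have hpfin := Fermat.Agent.S24Fund.finite_poles hFF htr
  have hpcard : hpfin.toFinset.card = 2 := by
    have h1 := Fermat.Agent.GoodRedBranch.card_poles_jBar 2
    rw [orbCount_T, h2_cuspCount_two] at h1
    refine Eq.trans ?_ h1
    rw [← Set.ncard_eq_toFinset_card _ hpfin, ← Nat.card_coe_set_eq]
    rfl
  have hpsum : ∑ v ∈ hpfin.toFinset, (-(v.ord (jBar 2))) = 3 := by
    rw [Finset.sum_neg_distrib, Fermat.Agent.S24Fund.sum_ord_poles hFF htr, hdeg]
    norm_num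
  obtain ⟨Qinf, Q0, -, hQmem, hQinf, hQ0⟩ := h2_pair_of_card_sum hpfin.toFinset
    (fun v => -(v.ord (jBar 2))) hpcard (fun v hv => by
      rw [Set.Finite.mem_toFinset] at hv
      have hv' : v.ord (jBar 2) < 0 := hv
      omega) hpsum
  -- the zeros of `j`
  have hzfin := Fermat.Agent.S24Fund.finite_zeros hFF htr 0
  have hzcard : hzfin.toFinset.card = 1 := by
    have h1 := Fermat.Agent.GoodRedBranch.card_fibre_jBar_zero 2
    have h2 := three_mul_orbCount_ST 2
    rw [h2_dedekindPsi_two, h2_nuThree_two] at h2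
    have h3 : orbCount (CongruenceSubgroup.Gamma0 2) (ModularGroup.S * ModularGroup.T) = 1 := by
      omega
    rw [h3] at h1
    refine Eq.trans ?_ h1
    rw [← Set.ncard_eq_toFinset_card _ hzfin, ← Nat.card_coe_set_eq]
    rfl
  have hzsum := Fermat.Agent.S24Fund.sum_ord_zeros hFF htr 0
  rw [hdeg] at hzsum
  obtain ⟨P0, hPmem, hP0⟩ := h2_single_of_card_sum hzfin.toFinset
    (fun v => v.ord (jBar 2 - algebraMap Kbar (FBar 2) 0)) 3 hzcard (by exact_mod_cast hzsum)
  -- the zeros of `j - 1728`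
  have hrfin := Fermat.Agent.S24Fund.finite_zeros hFF htr 1728
  have hrcard : hrfin.toFinset.card = 2 := by
    have h1 := Fermat.Agent.GoodRedBranch.card_fibre_jBar_1728 2
    have h2 := two_mul_orbCount_S 2
    rw [h2_dedekindPsi_two, h2_nuTwo_two] at h2
    have h3 : orbCount (CongruenceSubgroup.Gamma0 2) ModularGroup.S = 2 := by
      omega
    rw [h3] at h1
    refine Eq.trans ?_ h1
    rw [← Set.ncard_eq_toFinset_card _ hrfin, ← Nat.card_coe_set_eq]
    rfl
  have hrsum := Fermat.Agent.S24Fund.sum_ord_zeros hFF htr 1728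
  rw [hdeg] at hrsum
  obtain ⟨-, R, -, -, -, hR⟩ := h2_pair_of_card_sum hrfin.toFinset
    (fun v => v.ord (jBar 2 - algebraMap Kbar (FBar 2) 1728)) hrcard (fun v hv => by
      rw [Set.Finite.mem_toFinset] at hv
      exact hv) (by exact_mod_cast hrsum)
  -- rigidity
  simp only [map_zero, sub_zero] at hP0
  refine exists_haupt2_of_fibres hRR hg (jBar 2) Qinf Q0 P0 R (by omega) (by omega) ?_ hP0 ?_ hR
  · intro v hv
    exact (hQmem v).mp ((Set.Finite.mem_toFinset hpfin).mpr hv)
  · intro v hv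
    refine (hPmem v).mp ((Set.Finite.mem_toFinset hzfin).mpr ?_)
    show 0 < v.ord (jBar 2 - algebraMap Kbar (FBar 2) 0)
    rw [map_zero, sub_zero]
    exact hv

end Fermat.Agent.GoodRedSmall
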