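import Mathlib
import Fermat.Agent.Lib.GoodRed.Small.GenusZero
import Fermat.Agent.Lib.GoodRed.Small.PolyOrd

/-!
# Cluster B / GoodRed (23): the Hauptmodul of `X₀(3)` — generic form  (helper12)

`exists_T3_of_fibres`: a function field `F / K` of genus `0` (`K` algebraically closed of
characteristic `0`) with a function `j` whose fibres over `∞, 0, 1728` are
`Q∞ + 3 Q₀`, `P₁ + 3 P₃`, `2 R + 2 R'` contains `y` with `j y³ = (y + 27)(y + 243)³`.
-/

set_option autoImplicit false

noncomputable section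

open AlgebraicCurve Polynomial

namespace Fermat.Agent.GoodRedSmall

open Fermat.Agent.RR

/-- rigidity for level 3: if `c (t - a₁)(t - a₃)³ - 1728 t³ = c' (t² + u t + v)²` for all `t`
then `a₃ = 9 a₁` and `c a₁ = -27`. -/
theorem rigidity3 {K : Type*} [Field K] [CharZero K] {a₁ a₃ c c' u v : K}
    (hc : c ≠ 0) (ha₁ : a₁ ≠ 0) (ha₃ : a₃ ≠ 0) (hne : a₁ ≠ a₃)
    (hid : ∀ t : K, c * (t - a₁) * (t - a₃) ^ 3 - 1728 * t ^ 3 = c' * (t ^ 2 + u * t + v) ^ 2) :
    a₃ = 9 * a₁ ∧ c * a₁ = -27 := by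
  have h0 := hid 0
  have h1 := hid 1
  have hm1 := hid (-1)
  have h2 := hid 2
  have hm2 := hid (-2)
  -- coefficient of t^4
  have hcc : c' = c := by
    linear_combination (-(1 : K) / 24) * h2 + (-(1 : K) / 24) * hm2 + ((4 : K) / 24) * h1
      + ((4 : K) / 24) * hm1 + (-(6 : K) / 24) * h0
  subst hcc
  -- the other coefficients
  have e0 : c' * (v ^ 2 - a₁ * a₃ ^ 3) = 0 := by
    linear_combination -h0
  have e2 : c' * (u ^ 2 + 2 * v - 3 * a₁ * a₃ - 3 * a₃ ^ 2) = 0 := by
    linear_combination (-(16 : K) / 24) * h1 + (-(16 : K) / 24) * hm1 + ((1 : K) / 24) * h2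
      + ((1 : K) / 24) * hm2 + ((30 : K) / 24) * h0
  have e1 : c' * (2 * u * v + 3 * a₁ * a₃ ^ 2 + a₃ ^ 3) = 0 := by
    linear_combination (-(8 : K) / 12) * h1 + ((8 : K) / 12) * hm1 + ((1 : K) / 12) * h2
      + (-(1 : K) / 12) * hm2
  have e3 : 2 * c' * u + c' * (a₁ + 3 * a₃) + 1728 = 0 := by
    linear_combination (-(1 : K) / 12) * h2 + ((1 : K) / 12) * hm2 + ((2 : K) / 12) * h1
      + (-(2 : K) / 12) * hm1
  have E0 : v ^ 2 = a₁ * a₃ ^ 3 := by
    have := (mul_eq_zero.mp e0).resolve_left hc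
    linear_combination this
  have E2 : u ^ 2 + 2 * v = 3 * a₁ * a₃ + 3 * a₃ ^ 2 := by
    have := (mul_eq_zero.mp e2).resolve_left hc
    linear_combination this
  have E1 : 2 * u * v = -(3 * a₁ * a₃ ^ 2 + a₃ ^ 3) := by
    have := (mul_eq_zero.mp e1).resolve_left hc
    linear_combination this
  have k1 : a₃ ^ 3 * (8 * a₁ * v - (3 * a₁ ^ 2 * a₃ + 6 * a₁ * a₃ ^ 2 - a₃ ^ 3)) = 0 := by
    linear_combination (4 * (3 * a₁ * a₃ + 3 * a₃ ^ 2 - 2 * v)) * E0 + (4 * v ^ 2) * E2
      - (2 * u * v + (-(3 * a₁ * a₃ ^ 2 + a₃ ^ 3))) * E1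
  have k1' : 8 * a₁ * v = 3 * a₁ ^ 2 * a₃ + 6 * a₁ * a₃ ^ 2 - a₃ ^ 3 := by
    have := (mul_eq_zero.mp k1).resolve_left (pow_ne_zero 3 ha₃)
    linear_combination this
  have k2 : a₃ ^ 2 * ((a₃ - a₁) ^ 3 * (a₃ - 9 * a₁)) = 0 := by
    linear_combination (-((3 * a₁ ^ 2 * a₃ + 6 * a₁ * a₃ ^ 2 - a₃ ^ 3) + 8 * a₁ * v)) * k1'
      + (64 * a₁ ^ 2) * E0
  have k3 : a₃ = 9 * a₁ := by
    have h := (mul_eq_zero.mp k2).resolve_left (pow_ne_zero 2 ha₃)
    have h' := (mul_eq_zero.mp h).resolve_left (pow_ne_zero 3 (sub_ne_zero.mpr (Ne.symm hne)))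
    linear_combination h'
  refine ⟨k3, ?_⟩
  subst k3
  have hv : v = -27 * a₁ ^ 2 := by
    have : a₁ * (8 * (v + 27 * a₁ ^ 2)) = 0 := by linear_combination k1'
    have := (mul_eq_zero.mp this).resolve_left ha₁
    linear_combination this / 8
  subst hv
  have hu : u = 18 * a₁ := by
    have : a₁ ^ 2 * (-54 * (u - 18 * a₁)) = 0 := by linear_combination E1
    have := (mul_eq_zero.mp this).resolve_left (pow_ne_zero 2 ha₁)
    linear_combination this / (-54)
  subst hu
  linear_combination e3 / 64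

variable {K F : Type*} [Field K] [Field F] [Algebra K F]

/-- a pole of `f` is a pole of `f - c`, of the same order. -/
theorem ord_sub_const_of_neg (v : Place K F) {f : F} (hf : v.ord f < 0) (c : K) :
    v.ord (f - algebraMap K F c) = v.ord f := by
  rcases eq_or_ne c 0 with rfl | hc
  · simp
  have hf0 : f ≠ 0 := by
    rintro rfl
    simp at hf
  have hc' : -algebraMap K F c ≠ 0 := by
    rw [neg_ne_zero, ne_eq, map_eq_zero_iff _ (algebraMap K F).injective]
    exact hc
  rw [sub_eq_add_neg]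
  exact ord_add_eq_of_lt v hf0 hc' (by rw [ord_neg', ord_const]; exact hf)

/-- if `f` has no pole at `v` then `f - c` has no pole at `v`. -/
theorem ord_sub_const_nonneg (v : Place K F) {f : F} (hf : 0 ≤ v.ord f) (c : K) :
    0 ≤ v.ord (f - algebraMap K F c) := by
  apply Fermat.Agent.S24Res.ord_nonneg_of_mem
  exact sub_mem (Fermat.Agent.S24Res.mem_of_ord_nonneg v hf) (v.algebraMap_mem' c)

/-- the order of `f * x ^ 3 * (p * q ^ 3)⁻¹`. -/
theorem ord_quot3 (v : Place K F) {f x p q : F} (hf : f ≠ 0) (hx : x ≠ 0) (hp : p ≠ 0)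
    (hq : q ≠ 0) :
    v.ord (f * x ^ 3 * (p * q ^ 3)⁻¹) = v.ord f + 3 * v.ord x - v.ord p - 3 * v.ord q := by
  have hx3 : x ^ 3 ≠ 0 := pow_ne_zero 3 hx
  have hq3 : q ^ 3 ≠ 0 := pow_ne_zero 3 hq
  rw [v.ord_mul (mul_ne_zero hf hx3) (inv_ne_zero (mul_ne_zero hp hq3)), v.ord_mul hf hx3,
    v.ord_inv, v.ord_mul hp hq3, ord_pow', ord_pow']
  push_cast
  ring

/-- the order of `f * x ^ 3 * (p ^ 2 * q ^ 2)⁻¹`. -/
theorem ord_quot22 (v : Place K F) {f x p q : F} (hf : f ≠ 0) (hx : x ≠ 0) (hp : p ≠ 0)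
    (hq : q ≠ 0) :
    v.ord (f * x ^ 3 * (p ^ 2 * q ^ 2)⁻¹) =
      v.ord f + 3 * v.ord x - 2 * v.ord p - 2 * v.ord q := by
  have hx3 : x ^ 3 ≠ 0 := pow_ne_zero 3 hx
  have hp2 : p ^ 2 ≠ 0 := pow_ne_zero 2 hp
  have hq2 : q ^ 2 ≠ 0 := pow_ne_zero 2 hq
  rw [v.ord_mul (mul_ne_zero hf hx3) (inv_ne_zero (mul_ne_zero hp2 hq2)), v.ord_mul hf hx3,
    v.ord_inv, v.ord_mul hp2 hq2, ord_pow', ord_pow', ord_pow']
  push_cast
  ring

set_option maxHeartbeats 1600000 in
/-- **the Hauptmodul of `X₀(3)`**, generic form. -/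
theorem exists_T3_of_fibres [IsAlgClosed K] [CharZero K]
    (h : IsRRField K F) (hg : genusFF K F = 0) (j : F)
    (Qi Q0 P1 P3 R R' : Place K F)
    (hQi : Qi.ord j = -1) (hQ0 : Q0.ord j = -3)
    (hpoles : ∀ v : Place K F, v.ord j < 0 → v = Qi ∨ v = Q0)
    (hP1 : P1.ord j = 1) (hP3 : P3.ord j = 3)
    (hzeros : ∀ v : Place K F, 0 < v.ord j → v = P1 ∨ v = P3)
    (hR : R.ord (j - algebraMap K F 1728) = 2) (hR' : R'.ord (j - algebraMap K F 1728) = 2)
    (hRR' : R ≠ R')
    (h1728 : ∀ v : Place K F, 0 < v.ord (j - algebraMap K F 1728) → v = R ∨ v = R') :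
    ∃ y : F, j * y ^ 3 = (y + 27) * (y + 243) ^ 3 := by
  classical
  -- distinctness of the special places
  have hQiQ0 : Q0 ≠ Qi := by rintro rfl; omega
  have hP1P3 : P1 ≠ P3 := by rintro rfl; omega
  have hP1Qi : P1 ≠ Qi := by rintro rfl; omega
  have hP1Q0 : P1 ≠ Q0 := by rintro rfl; omega
  have hP3Qi : P3 ≠ Qi := by rintro rfl; omega
  have hP3Q0 : P3 ≠ Q0 := by rintro rfl; omega
  have hRnp : ∀ v : Place K F, 0 < v.ord (j - algebraMap K F 1728) → 0 ≤ v.ord j := by
    intro v hv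
    by_contra hneg
    rw [ord_sub_const_of_neg v (not_le.mp hneg)] at hv
    omega
  have hRQi : R ≠ Qi := by
    rintro rfl
    have := hRnp R (by omega)
    omega
  have hRQ0 : R ≠ Q0 := by
    rintro rfl
    have := hRnp R (by omega)
    omega
  have hR'Qi : R' ≠ Qi := by
    rintro rfl
    have := hRnp R' (by omega)
    omega
  have hR'Q0 : R' ≠ Q0 := by
    rintro rfl
    have := hRnp R' (by omega)
    omega
  have hj0 : j ≠ 0 := by
    rintro rfl
    simp at hQi
  have hj1728 : j - algebraMap K F 1728 ≠ 0 := by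
    intro h0
    rw [h0] at hR
    simp at hR
  -- the coordinate
  obtain ⟨x, hx, hxQ0, hx0⟩ := exists_coordinate h hg hQiQ0
  have hxne : x ≠ 0 := hx.ne_zero
  have hval0 : Q0.ord (x - algebraMap K F 0) = 1 := by rw [map_zero, sub_zero]; exact hxQ0
  -- a place other than `Q0`, `Qi` has a nonzero value
  have hvalue : ∀ v : Place K F, v ≠ Qi → v ≠ Q0 →
      ∃ a : K, a ≠ 0 ∧ v.ord (x - algebraMap K F a) = 1 := by
    intro v hvQi hvQ0
    obtain ⟨a, ha⟩ := hx.exists_value h hvQi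
    refine ⟨a, ?_, ha⟩
    rintro rfl
    exact hvQ0 (hx.value_injective h ha hval0)
  obtain ⟨a₁, ha₁0, ha₁⟩ := hvalue P1 hP1Qi hP1Q0
  obtain ⟨a₃, ha₃0, ha₃⟩ := hvalue P3 hP3Qi hP3Q0
  obtain ⟨b, hb0, hb⟩ := hvalue R hRQi hRQ0
  obtain ⟨b', hb'0, hb'⟩ := hvalue R' hR'Qi hR'Q0
  have ha₁₃ : a₁ ≠ a₃ := by
    rintro rfl
    exact hP1P3 (hx.value_injective h ha₁ ha₃)
  have hbb' : b ≠ b' := by
    rintro rfl
    exact hRR' (hx.value_injective h hb hb')
  -- orders of `x - a` at a place with value `a'`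
  have hordsub : ∀ (v : Place K F) (a' a : K), v.ord (x - algebraMap K F a') = 1 →
      v.ord (x - algebraMap K F a) = if a' = a then 1 else 0 := by
    intro v a' a hv
    split_ifs with haa
    · subst haa; exact hv
    · exact hx.ord_sub_eq_zero h hv haa
  have hordQi : ∀ a : K, Qi.ord (x - algebraMap K F a) = -1 := fun a => (hx.sub_const a).ord_pole
  have hne : ∀ a : K, x - algebraMap K F a ≠ 0 := hx.sub_ne_zero
  -- first relation
  have hphi : ∀ v : Place K F,
      v.ord (j * x ^ 3 * ((x - algebraMap K F a₁) * (x - algebraMap K F a₃) ^ 3)⁻¹) = 0 := by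
    intro v
    rw [ord_quot3 v hj0 hxne (hne a₁) (hne a₃)]
    by_cases hvQi : v = Qi
    · subst hvQi
      rw [hQi, hx.ord_pole, hordQi, hordQi]; norm_num
    by_cases hvQ0 : v = Q0
    · subst hvQ0
      rw [hQ0, hxQ0, hordsub v 0 a₁ hval0, hordsub v 0 a₃ hval0, if_neg (Ne.symm ha₁0),
        if_neg (Ne.symm ha₃0)]
      norm_num
    obtain ⟨a, ha0, ha⟩ := hvalue v hvQi hvQ0
    have hvx : v.ord x = 0 := hx0 v hvQ0 hvQi
    rw [hvx, hordsub v a a₁ ha, hordsub v a a₃ ha]
    by_cases hvP1 : v = P1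
    · subst hvP1
      have haa : a = a₁ := by
        by_contra hne'
        have := hordsub v a a₁ ha
        rw [if_neg hne', ha₁] at this
        omega
      subst haa
      rw [hP1, if_pos rfl, if_neg ha₁₃]; norm_num
    by_cases hvP3 : v = P3
    · subst hvP3
      have haa : a = a₃ := by
        by_contra hne'
        have := hordsub v a a₃ ha
        rw [if_neg hne', ha₃] at this
        omega
      subst haa
      rw [hP3, if_neg (Ne.symm ha₁₃), if_pos rfl]; norm_num
    have hvj : v.ord j = 0 := by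
      rcases lt_trichotomy (v.ord j) 0 with hlt | heq | hgt
      · rcases hpoles v hlt with h1 | h1
        · exact absurd h1 hvQi
        · exact absurd h1 hvQ0
      · exact heq
      · rcases hzeros v hgt with h1 | h1
        · exact absurd h1 hvP1
        · exact absurd h1 hvP3
    have h1 : a ≠ a₁ := by
      rintro rfl
      exact hvP1 (hx.value_injective h ha ha₁)
    have h3 : a ≠ a₃ := by
      rintro rfl
      exact hvP3 (hx.value_injective h ha ha₃)
    rw [hvj, if_neg h1, if_neg h3]; norm_num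
  have hphi_ne : j * x ^ 3 * ((x - algebraMap K F a₁) * (x - algebraMap K F a₃) ^ 3)⁻¹ ≠ 0 :=
    mul_ne_zero (mul_ne_zero hj0 (pow_ne_zero 3 hxne))
      (inv_ne_zero (mul_ne_zero (hne a₁) (pow_ne_zero 3 (hne a₃))))
  obtain ⟨c, hc0, hc⟩ := eq_algebraMap_of_ord_eq_zero h hphi_ne hphi
  have hrel : j * x ^ 3 =
      algebraMap K F c * ((x - algebraMap K F a₁) * (x - algebraMap K F a₃) ^ 3) := by
    have hden : (x - algebraMap K F a₁) * (x - algebraMap K F a₃) ^ 3 ≠ 0 :=
      mul_ne_zero (hne a₁) (pow_ne_zero 3 (hne a₃))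
    rw [← hc, inv_mul_cancel_right₀ hden]
  -- second relation
  have hpsi : ∀ v : Place K F,
      v.ord ((j - algebraMap K F 1728) * x ^ 3 *
        ((x - algebraMap K F b) ^ 2 * (x - algebraMap K F b') ^ 2)⁻¹) = 0 := by
    intro v
    rw [ord_quot22 v hj1728 hxne (hne b) (hne b')]
    by_cases hvQi : v = Qi
    · subst hvQi
      rw [ord_sub_const_of_neg v (by omega), hQi, hx.ord_pole, hordQi, hordQi]; norm_num
    by_cases hvQ0 : v = Q0
    · subst hvQ0
      rw [ord_sub_const_of_neg v (by omega), hQ0, hxQ0, hordsub v 0 b hval0,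
        hordsub v 0 b' hval0, if_neg (Ne.symm hb0), if_neg (Ne.symm hb'0)]
      norm_num
    obtain ⟨a, ha0, ha⟩ := hvalue v hvQi hvQ0
    have hvx : v.ord x = 0 := hx0 v hvQ0 hvQi
    rw [hvx, hordsub v a b ha, hordsub v a b' ha]
    by_cases hvR : v = R
    · subst hvR
      have haa : a = b := by
        by_contra hne'
        have := hordsub v a b ha
        rw [if_neg hne', hb] at this
        omega
      subst haa
      rw [hR, if_pos rfl, if_neg hbb']; norm_num
    by_cases hvR' : v = R'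
    · subst hvR'
      have haa : a = b' := by
        by_contra hne'
        have := hordsub v a b' ha
        rw [if_neg hne', hb'] at this
        omega
      subst haa
      rw [hR', if_neg (Ne.symm hbb'), if_pos rfl]; norm_num
    have hvj : 0 ≤ v.ord j := by
      by_contra hneg
      rcases hpoles v (not_le.mp hneg) with h1 | h1
      · exact hvQi h1
      · exact hvQ0 h1
    have hvj' : v.ord (j - algebraMap K F 1728) = 0 := by
      have h1 := ord_sub_const_nonneg v hvj (1728 : K)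
      rcases h1.lt_or_eq with hpos | heq
      · rcases h1728 v hpos with h2 | h2
        · exact absurd h2 hvR
        · exact absurd h2 hvR'
      · exact heq.symm
    have h1 : a ≠ b := by
      rintro rfl
      exact hvR (hx.value_injective h ha hb)
    have h3 : a ≠ b' := by
      rintro rfl
      exact hvR' (hx.value_injective h ha hb')
    rw [hvj', if_neg h1, if_neg h3]; norm_num
  have hpsi_ne : (j - algebraMap K F 1728) * x ^ 3 *
      ((x - algebraMap K F b) ^ 2 * (x - algebraMap K F b') ^ 2)⁻¹ ≠ 0 :=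
    mul_ne_zero (mul_ne_zero hj1728 (pow_ne_zero 3 hxne))
      (inv_ne_zero (mul_ne_zero (pow_ne_zero 2 (hne b)) (pow_ne_zero 2 (hne b'))))
  obtain ⟨c', hc'0, hc'⟩ := eq_algebraMap_of_ord_eq_zero h hpsi_ne hpsi
  have hrel' : (j - algebraMap K F 1728) * x ^ 3 =
      algebraMap K F c' * ((x - algebraMap K F b) ^ 2 * (x - algebraMap K F b') ^ 2) := by
    have hden : (x - algebraMap K F b) ^ 2 * (x - algebraMap K F b') ^ 2 ≠ 0 :=
      mul_ne_zero (pow_ne_zero 2 (hne b)) (pow_ne_zero 2 (hne b'))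
    rw [← hc', inv_mul_cancel_right₀ hden]
  -- the polynomial identity
  have hxtr : Transcendental K x :=
    Fermat.Agent.S24Res.transcendental_of_ord_ne_zero Qi (by rw [hx.ord_pole]; norm_num)
  set D : K[X] := C c * ((X - C a₁) * (X - C a₃) ^ 3) - C 1728 * X ^ 3 -
    C c' * ((X - C b) ^ 2 * (X - C b') ^ 2) with hD
  have hDx : Polynomial.aeval x D = 0 := by
    rw [hD]
    simp only [map_sub, map_mul, map_pow, Polynomial.aeval_X, Polynomial.aeval_C]
    rw [← hrel, ← hrel']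
    ring
  have hD0 : D = 0 := by
    by_contra hne0
    exact hxtr ⟨D, hne0, hDx⟩
  have hid : ∀ t : K, c * (t - a₁) * (t - a₃) ^ 3 - 1728 * t ^ 3 =
      c' * (t ^ 2 + (-(b + b')) * t + b * b') ^ 2 := by
    intro t
    have := congrArg (Polynomial.eval t) hD0
    rw [hD] at this
    simp only [Polynomial.eval_sub, Polynomial.eval_mul, Polynomial.eval_pow, Polynomial.eval_X,
      Polynomial.eval_C, Polynomial.eval_zero] at this
    linear_combination this
  obtain ⟨h9, hca⟩ := rigidity3 hc0 ha₁0 ha₃0 ha₁₃ hid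
  -- the normalised Hauptmodul
  refine ⟨algebraMap K F c * x, ?_⟩
  have h27 : (27 : F) = -(algebraMap K F c * algebraMap K F a₁) := by
    rw [← map_mul, hca, map_neg, neg_neg, map_ofNat]
  have h243 : (243 : F) = -(algebraMap K F c * algebraMap K F a₃) := by
    rw [h9, ← map_mul, show c * (9 * a₁) = 9 * (c * a₁) by ring, hca,
      show (9 * -27 : K) = -243 by norm_num, map_neg, neg_neg, map_ofNat]
  rw [h27, h243]
  have : j * (algebraMap K F c * x) ^ 3 = algebraMap K F c ^ 3 * (j * x ^ 3) := by ring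
  rw [this, hrel]
  ring

end Fermat.Agent.GoodRedSmall
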