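import Mathlib
import Fermat.Agent.Lib.GoodRed.Small.Statements
import Fermat.Agent.Lib.GoodRed.ModularBranch
import Fermat.Agent.F3.Dict.PlacesHom

/-!
# Cluster B / GoodRed (23), piece S0: ramification of `F_N / ℚ̄(j)` (helper54)

* `ordDvd N : OrdDvd N`: a place `v` over `j = c` has `ord_v (j - c)` dividing `3` (`c = 0`),
  dividing `2` (`c = 1728`), equal to `1` (otherwise).
* `simplePole N : SimplePole N`: there is a place at which `j` has a simple pole (the cusp `∞`).

Both come from the dictionary places ↔ points of `F3/Dict/PlacesHom.lean` applied to the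
Galois datum of S24 (`exists_embF`, `exists_local_datum`, `exists_valuation_inf'`).
-/

set_option autoImplicit false
set_option linter.style.haveILetI false

noncomputable section

open KaehlerDifferential UpperHalfPlane IntermediateField AlgebraicCurve

namespace Fermat.Agent.GoodRedSmall

open scoped MatrixGroups
open Fermat.Agent.S24

set_option synthInstance.maxHeartbeats 400000
set_option maxHeartbeats 2000000

section Abstract

variable {K F L Γ : Type*} [Field K] [IsAlgClosed K] [CharZero K]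
    [Field F] [Algebra K F] [Field L] [Algebra K L]
    [Group Γ] [MulSemiringAction Γ L] [SMulCommClass Γ K L]

/-- one fibre, the point `γ = 1` when every power of `g` lies in `H`: the place is
unramified over the `t`-line, i.e. `ord_v t = 1`. -/
theorem exists_place_ord_eq_one_of_pow_mem (φ : F →ₐ[K] L)
    (t : F) (httr : Transcendental K t)
    (hfin : ∃ Γ' : Subgroup Γ, Γ'.FiniteIndex ∧ ∀ g ∈ Γ', ∀ x : L, g • x = x)
    (ht : ∀ g : Γ, g • φ t = φ t)
    (hfix : ∀ x : L, (∀ g : Γ, g • x = x) → x ∈ IntermediateField.adjoin K {φ t})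
    (H : Subgroup Γ) (hH : ∀ g : Γ, g ∈ H ↔ ∀ x : F, g • φ x = φ x)
    (w : Valuation L (WithZero (Multiplicative ℤ))) (s : ℕ) (g : Γ)
    (hwK : ∀ a : K, a ≠ 0 → w (algebraMap K L a) = 1)
    (hs : 0 < s)
    (hw : w (φ t) = WithZero.exp (-(s : ℤ)))
    (hg : ∀ x, w (g • x) = w x)
    (hgs : ∀ k : ℤ, (∀ x : L, (g ^ k) • x = x) ↔ (s : ℤ) ∣ k)
    (hall : ∀ k : ℕ, g ^ k ∈ H) :
    ∃ v : Place K F, v.ord t = 1 := by
  classical
  obtain ⟨v, e, h, hv, he, hh, hhe, -, hve⟩ :=
    Fermat.Agent.F3Places.exists_place_of_point_fibre_hom φ t httr hfin ht hfix H hH w s g hwK hs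
      hw hg hgs 1
  have hcard : e = s := by
    letI : Algebra F L := φ.toRingHom.toAlgebra
    haveI : IsScalarTower K F L := IsScalarTower.of_algebraMap_eq (fun a => (φ.commutes a).symm)
    have hc := Fermat.Agent.F3Places.ramification_eq_card t httr hfin ht hfix H hH w s g hwK hs
      hw hg hgs v 1 e hve
    rw [hc, Finset.filter_true_of_mem, Finset.card_range]
    intro k _
    simpa using hall k
  have ht0 : t ≠ 0 := by
    intro h0
    rw [h0, Place.ord_zero] at hv
    exact lt_irrefl _ hv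
  have h1 := hve _ ht0
  rw [ht 1, hw, WithZero.log_exp, neg_neg, hcard] at h1
  have he' : (s : ℤ) ≠ 0 := by exact_mod_cast hs.ne'
  have h4 : (s : ℤ) * v.ord t = (s : ℤ) * 1 := by rw [← h1, mul_one]
  exact ⟨v, mul_left_cancel₀ he' h4⟩

end Abstract

variable (N : ℕ) [NeZero N]

/-- the order of `j - c` at a place above `c` divides the order `s` of the local stabiliser. -/
theorem exists_datum_ord_dvd (c : Kbar) (v : Place Kbar (FBar N))
    (hv : 0 < v.ord (jBar N - algebraMap Kbar (FBar N) c)) :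
    ∃ s : ℕ, (v.ord (jBar N - algebraMap Kbar (FBar N) c) ∣ (s : ℤ)) ∧
      (c = 0 → s ∣ 3) ∧ (c = 1728 → s ∣ 2) := by
  haveI : NeZero (2 * N) := ⟨Nat.mul_ne_zero two_ne_zero (NeZero.ne N)⟩
  have h2 : 2 ≤ 2 * N := by
    have := Nat.pos_of_ne_zero (NeZero.ne N)
    omega
  obtain ⟨φ, hφj, hφH⟩ := exists_embF N
  obtain ⟨w, s, g, hwK, hs, hw, hg, hgs, hg1728, hg0, -⟩ := exists_local_datum (2 * N) h2 c
  obtain ⟨httr, ht, hfix, hφt⟩ := Fermat.Agent.F3Places.fibre_hyps_sub (Γ := SL(2, ℤ)) φ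
    (jBar N) (jLL (2 * N)) hφj (transcendental_jBar N) (smul_jLL (2 * N))
    (Fermat.Agent.S24Inv.mem_adjoin_jLL_of_invariant' (2 * N)) c
  have hw' : w (φ (jBar N - algebraMap Kbar (FBar N) c)) = WithZero.exp (-(s : ℤ)) := by
    rw [hφt]; exact hw
  obtain ⟨γ, e, h, he, hh, hhe, -, hve⟩ :=
    Fermat.Agent.F3Places.exists_point_of_place_fibre_hom (Γ := SL(2, ℤ)) φ
      (jBar N - algebraMap Kbar (FBar N) c) httr (exists_finiteIndex_fixing (2 * N)) ht hfix
      (CongruenceSubgroup.Gamma0 N) (fun γ => hφH γ) w s g hwK hs hw' hg hgs v hv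
  have ht0 : jBar N - algebraMap Kbar (FBar N) c ≠ 0 := by
    intro h0
    rw [h0, Place.ord_zero] at hv
    exact lt_irrefl _ hv
  have h1 := hve _ ht0
  rw [ht γ, hw', WithZero.log_exp, neg_neg] at h1
  -- `s = e * ord`, `h * e = s`
  have h3 : v.ord (jBar N - algebraMap Kbar (FBar N) c) = (h : ℤ) := by
    have he' : (e : ℤ) ≠ 0 := by exact_mod_cast he.ne'
    have h4 : (e : ℤ) * v.ord (jBar N - algebraMap Kbar (FBar N) c) = (e : ℤ) * (h : ℤ) := by
      rw [← h1, ← hhe]; push_cast; ring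
    exact mul_left_cancel₀ he' h4
  refine ⟨s, ?_, ?_, ?_⟩
  · rw [h3, ← hhe]
    push_cast
    exact dvd_mul_right _ _
  · intro hc
    have hg' := hg0 hc
    subst hg'
    have h5 := (hgs 3).mp ((ST_zpow_smul_eq_iff (2 * N) h2 3).mpr dvd_rfl)
    exact_mod_cast h5
  · intro hc
    have hg' := hg1728 hc
    subst hg'
    have h5 := (hgs 2).mp ((S_zpow_smul_eq_iff (2 * N) h2 2).mpr dvd_rfl)
    exact_mod_cast h5

/-- **(S0)** ramification of `F_N / ℚ̄(j)`. -/
theorem ordDvd : OrdDvd N := by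
  intro c v hv
  obtain ⟨s, hdvd, h0, h1728⟩ := exists_datum_ord_dvd N c v hv
  refine ⟨fun hc => ?_, fun hc => ?_,
    fun hc0 hc => Fermat.Agent.GoodRedBranch.ord_jBar_sub_eq_one N hc0 hc v hv⟩
  · have : (s : ℤ) ∣ 3 := by exact_mod_cast h0 hc
    exact hdvd.trans this
  · have : (s : ℤ) ∣ 2 := by exact_mod_cast h1728 hc
    exact hdvd.trans this

omit [NeZero N] in
/-- every power of `T` lies in `Γ₀(N)`. -/
theorem T_pow_mem_Gamma0 (k : ℕ) : ModularGroup.T ^ k ∈ CongruenceSubgroup.Gamma0 N := by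
  refine Subgroup.pow_mem _ ?_ k
  rw [CongruenceSubgroup.Gamma0_mem]
  simp [ModularGroup.T]

/-- **(S0∞)** `j` has a simple pole at the cusp `∞`. -/
theorem simplePole : SimplePole N := by
  classical
  haveI : NeZero (2 * N) := ⟨Nat.mul_ne_zero two_ne_zero (NeZero.ne N)⟩
  have h2N : 0 < 2 * N := by
    have := Nat.pos_of_ne_zero (NeZero.ne N)
    omega
  obtain ⟨φ, hφj, hφH⟩ := exists_embF N
  obtain ⟨winf, hwinfK, hwinf, hginf⟩ := exists_valuation_inf' (2 * N)
  obtain ⟨httr, ht, hfix, hφt⟩ := Fermat.Agent.F3Places.fibre_hyps_inv (Γ := SL(2, ℤ)) φ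
    (jBar N) (jLL (2 * N)) hφj (transcendental_jBar N) (smul_jLL (2 * N))
    (Fermat.Agent.S24Inv.mem_adjoin_jLL_of_invariant' (2 * N))
  have hw' : winf (φ (jBar N)⁻¹) = WithZero.exp (-((2 * N : ℕ) : ℤ)) := by
    rw [hφt, map_inv₀, hwinf, ← WithZero.exp_neg]
  obtain ⟨v, hv⟩ := exists_place_ord_eq_one_of_pow_mem (Γ := SL(2, ℤ)) φ
      (jBar N)⁻¹ httr (exists_finiteIndex_fixing (2 * N)) ht hfix
      (CongruenceSubgroup.Gamma0 N) (fun γ => hφH γ) winf (2 * N) ModularGroup.T hwinfK h2N hw'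
      hginf (T_zpow_smul_eq_iff (2 * N)) (T_pow_mem_Gamma0 N)
  refine ⟨v, ?_⟩
  rw [Place.ord_inv] at hv
  omega

end Fermat.Agent.GoodRedSmall
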