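import Mathlib

/-!
# Cluster B / GoodRed (23): bookkeeping for fibres with one or two points  (helper12)
-/

set_option autoImplicit false

namespace Fermat.Agent.GoodRedSmall

/-- a finite fibre with two points. -/
theorem exists_pair_of_card_two {α : Type*} {p : α → Prop} (hfin : {v | p v}.Finite)
    (hcard : Nat.card {v // p v} = 2) :
    ∃ v₁ v₂ : α, v₁ ≠ v₂ ∧ p v₁ ∧ p v₂ ∧ (∀ v, p v → v = v₁ ∨ v = v₂) ∧
      ∀ o : α → ℤ, ∑ v ∈ hfin.toFinset, o v = o v₁ + o v₂ := by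
  classical
  have hc : hfin.toFinset.card = 2 := by
    rw [← hcard, ← Set.ncard_eq_toFinset_card _ hfin, ← Nat.card_coe_set_eq]
    rfl
  obtain ⟨v₁, v₂, hne, hs⟩ := Finset.card_eq_two.mp hc
  have hmem : ∀ v, p v ↔ v = v₁ ∨ v = v₂ := by
    intro v
    have : v ∈ hfin.toFinset ↔ v ∈ ({v₁, v₂} : Finset α) := by rw [hs]
    rw [Set.Finite.mem_toFinset, Set.mem_setOf_eq, Finset.mem_insert, Finset.mem_singleton] at this
    exact this
  refine ⟨v₁, v₂, hne, (hmem v₁).mpr (Or.inl rfl), (hmem v₂).mpr (Or.inr rfl),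
    fun v hv => (hmem v).mp hv, fun o => ?_⟩
  rw [hs, Finset.sum_pair hne]

/-- a finite fibre with one point. -/
theorem exists_single_of_card_one {α : Type*} {p : α → Prop} (hfin : {v | p v}.Finite)
    (hcard : Nat.card {v // p v} = 1) :
    ∃ v₁ : α, p v₁ ∧ (∀ v, p v → v = v₁) ∧
      ∀ o : α → ℤ, ∑ v ∈ hfin.toFinset, o v = o v₁ := by
  classical
  have hc : hfin.toFinset.card = 1 := by
    rw [← hcard, ← Set.ncard_eq_toFinset_card _ hfin, ← Nat.card_coe_set_eq]
    rfl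
  obtain ⟨v₁, hs⟩ := Finset.card_eq_one.mp hc
  have hmem : ∀ v, p v ↔ v = v₁ := by
    intro v
    have : v ∈ hfin.toFinset ↔ v ∈ ({v₁} : Finset α) := by rw [hs]
    rw [Set.Finite.mem_toFinset, Set.mem_setOf_eq, Finset.mem_singleton] at this
    exact this
  refine ⟨v₁, (hmem v₁).mpr rfl, fun v hv => (hmem v).mp hv, fun o => ?_⟩
  rw [hs, Finset.sum_singleton]

end Fermat.Agent.GoodRedSmall
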