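import Mathlib
import Fermat.Agent.Lib.GoodRed.Small.Statements
import Fermat.Agent.Lib.GoodRed.Small.Haupt3Generic
import Fermat.Agent.Lib.GoodRed.Small.Pairs
import Fermat.Agent.Lib.GoodRed.Small.OrdDvd
import Fermat.Agent.Lib.GoodRed.ModularBranch
import Fermat.Agent.Lib.GenusEq.GenusFM

/-!
# Cluster B / GoodRed (23), piece S1.3: the Hauptmodul of `X₀(3)`  (helper12)

`existsT3 : ExistsT3`, i.e. `∃ x : F_3, j x³ = (x + 27)(x + 243)³`, from
* genus `0` (S24 + Lib/GenusEq), Riemann–Roch (Lib/RR),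
* the fibres of `j` over `0, 1728, ∞` (S24 / GoodRed/ModularBranch, `OrdDvd`, `SimplePole`),
* the rigidity computation `rigidity3`.
-/

set_option autoImplicit false

noncomputable section

open AlgebraicCurve ModularCurve

namespace Fermat.Agent.GoodRedSmall

open Fermat.Agent.RR Fermat.Agent.S24 Fermat.Agent.GoodRedBranch

theorem dedekindPsi_three : dedekindPsi 3 = 4 := by
  have h3 : Squarefree (3 : ℕ) := Nat.prime_three.squarefree
  rw [dedekindPsi, Nat.Prime.divisors Nat.prime_three, Finset.filter_insert, if_pos squarefree_one,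
    Finset.filter_singleton, if_pos h3, Finset.sum_insert (by decide), Finset.sum_singleton]

theorem nuTwo_three : nuTwo 3 = 0 := by
  unfold nuTwo
  rw [Nat.card_eq_fintype_card]
  decide

theorem nuThree_three : nuThree 3 = 1 := by
  unfold nuThree
  rw [Nat.card_eq_fintype_card]
  decide

theorem cuspCount_three : cuspCount 3 = 2 := by decide

theorem genusFF_three : genusFF Kbar (FBar 3) = 0 := by
  have h := Fermat.Agent.GenusEq.genusFF_modularFunctionFieldBar 3
  rw [genusFormula, dedekindPsi_three, nuTwo_three, nuThree_three, cuspCount_three] at h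
  have : (genusFF (AlgebraicClosure ℚ) ↥(ModularCurve.modularFunctionFieldBar 3) : ℚ) = 0 := by
    rw [h]; norm_num
  exact_mod_cast this

theorem finrank_three : Module.finrank (IntermediateField.adjoin Kbar {jBar 3}) (FBar 3) = 4 := by
  rw [show Module.finrank (IntermediateField.adjoin Kbar {jBar 3}) (FBar 3) =
    (CongruenceSubgroup.Gamma0 3).index from finrank_jBar 3,
    Fermat.Agent.S24.index_Gamma0, dedekindPsi_three]

set_option maxHeartbeats 1600000 in
set_option synthInstance.maxHeartbeats 400000 in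
/-- **S1.3**: the Hauptmodul of `X₀(3)`. -/
theorem existsT3 : ExistsT3 := by
  have hRR := Fermat.Agent.GenusEq.isRRField_modularFunctionFieldBar 3
  have hFF := isFunctionFieldOver_jBar 3
  have htr : Transcendental Kbar (jBar 3) := hFF.transcendental
  have h0 := ordDvd 3
  obtain ⟨Qi, hQi⟩ := simplePole 3
  -- the poles
  have hpc : Nat.card {v : Place Kbar ↥(ModularCurve.modularFunctionFieldBar 3) // v.ord (jBar 3) < 0} = 2 := by
    rw [card_poles_jBar 3, Fermat.Agent.S24.orbCount_T, cuspCount_three]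
  have hpfin := Fermat.Agent.S24Fund.finite_poles hFF htr
  obtain ⟨q₁, q₂, hq12, hq₁, hq₂, hqall, hqsum⟩ := exists_pair_of_card_two hpfin hpc
  have hps := Fermat.Agent.S24Fund.sum_ord_poles hFF htr
  rw [hqsum (fun v => v.ord (jBar 3)), finrank_three] at hps
  obtain ⟨Q0, hQ0, hpoles⟩ : ∃ Q0 : Place Kbar ↥(ModularCurve.modularFunctionFieldBar 3), Q0.ord (jBar 3) = -3 ∧
      ∀ v : Place Kbar ↥(ModularCurve.modularFunctionFieldBar 3), v.ord (jBar 3) < 0 → v = Qi ∨ v = Q0 := by
    rcases hqall Qi (by rw [hQi]; norm_num) with h | h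
    · refine ⟨q₂, ?_, fun v hv => ?_⟩
      · rw [← h, hQi] at hps
        push_cast at hps
        omega
      · rcases hqall v hv with h' | h'
        · left; rw [h', h]
        · right; exact h'
    · refine ⟨q₁, ?_, fun v hv => ?_⟩
      · rw [← h, hQi] at hps
        push_cast at hps
        omega
      · rcases hqall v hv with h' | h'
        · right; exact h'
        · left; rw [h', h]
  -- the zeros
  have hz : ∀ v : Place Kbar ↥(ModularCurve.modularFunctionFieldBar 3),
      v.ord (jBar 3 - algebraMap Kbar ↥(ModularCurve.modularFunctionFieldBar 3) 0) = v.ord (jBar 3) := by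
    intro v
    rw [map_zero, sub_zero]
  have hzc : Nat.card {v : Place Kbar ↥(ModularCurve.modularFunctionFieldBar 3) //
      0 < v.ord (jBar 3 - algebraMap Kbar ↥(ModularCurve.modularFunctionFieldBar 3) 0)} = 2 := by
    rw [card_fibre_jBar_zero 3]
    have := Fermat.Agent.S24.three_mul_orbCount_ST 3
    rw [dedekindPsi_three, nuThree_three] at this
    omega
  have hzfin := Fermat.Agent.S24Fund.finite_zeros hFF htr 0
  obtain ⟨p₁, p₂, hp12, hp₁, hp₂, hpall, hpsum⟩ := exists_pair_of_card_two hzfin hzc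
  have hzs := Fermat.Agent.S24Fund.sum_ord_zeros hFF htr 0
  rw [hpsum (fun v => v.ord (jBar 3 - algebraMap Kbar ↥(ModularCurve.modularFunctionFieldBar 3) 0)), finrank_three] at hzs
  have hd₁ : p₁.ord (jBar 3 - algebraMap Kbar ↥(ModularCurve.modularFunctionFieldBar 3) 0) ∣ 3 :=
    (h0 0 p₁ hp₁).1 rfl
  have hd₂ : p₂.ord (jBar 3 - algebraMap Kbar ↥(ModularCurve.modularFunctionFieldBar 3) 0) ∣ 3 :=
    (h0 0 p₂ hp₂).1 rfl
  have hcase : ∀ n : ℤ, 0 < n → n ∣ 3 → n = 1 ∨ n = 3 := by
    intro n hn hdvd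
    have hle : n ≤ 3 := Int.le_of_dvd (by norm_num) hdvd
    interval_cases n
    · left; rfl
    · exfalso; revert hdvd; decide
    · right; rfl
  have hzs' : p₁.ord (jBar 3) + p₂.ord (jBar 3) = 4 := by
    have h := hzs
    simp only [hz] at h
    exact_mod_cast h
  rw [hz] at hp₁ hp₂ hd₁ hd₂
  obtain ⟨P1, P3, hP1, hP3, hzeros⟩ : ∃ P1 P3 : Place Kbar ↥(ModularCurve.modularFunctionFieldBar 3),
      P1.ord (jBar 3) = 1 ∧ P3.ord (jBar 3) = 3 ∧
      ∀ v : Place Kbar ↥(ModularCurve.modularFunctionFieldBar 3), 0 < v.ord (jBar 3) → v = P1 ∨ v = P3 := by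
    rcases hcase _ hp₁ hd₁ with h1 | h1
    · exact ⟨p₁, p₂, h1, by omega, fun v hv => hpall v (by rw [hz]; exact hv)⟩
    · exact ⟨p₂, p₁, by omega, h1, fun v hv => (hpall v (by rw [hz]; exact hv)).symm⟩
  -- the fibre over `1728`
  have hrc : Nat.card {v : Place Kbar ↥(ModularCurve.modularFunctionFieldBar 3) //
      0 < v.ord (jBar 3 - algebraMap Kbar ↥(ModularCurve.modularFunctionFieldBar 3) 1728)} = 2 := by
    rw [card_fibre_jBar_1728 3]
    have := Fermat.Agent.S24.two_mul_orbCount_S 3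
    rw [dedekindPsi_three, nuTwo_three] at this
    omega
  have hrfin := Fermat.Agent.S24Fund.finite_zeros hFF htr 1728
  obtain ⟨R, R', hRR', hR, hR', hrall, hrsum⟩ := exists_pair_of_card_two hrfin hrc
  have hrs := Fermat.Agent.S24Fund.sum_ord_zeros hFF htr 1728
  rw [hrsum (fun v => v.ord (jBar 3 - algebraMap Kbar ↥(ModularCurve.modularFunctionFieldBar 3) 1728)), finrank_three] at hrs
  have hr₁ : R.ord (jBar 3 - algebraMap Kbar ↥(ModularCurve.modularFunctionFieldBar 3) 1728) ∣ 2 :=
    (h0 1728 R hR).2.1 rfl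
  have hr₂ : R'.ord (jBar 3 - algebraMap Kbar ↥(ModularCurve.modularFunctionFieldBar 3) 1728) ∣ 2 :=
    (h0 1728 R' hR').2.1 rfl
  have hcase2 : ∀ n : ℤ, 0 < n → n ∣ 2 → n ≤ 2 := fun n _ hdvd =>
    Int.le_of_dvd (by norm_num) hdvd
  have hle₁ := hcase2 _ hR hr₁
  have hle₂ := hcase2 _ hR' hr₂
  have hrs' : R.ord (jBar 3 - algebraMap Kbar ↥(ModularCurve.modularFunctionFieldBar 3) 1728) +
      R'.ord (jBar 3 - algebraMap Kbar ↥(ModularCurve.modularFunctionFieldBar 3) 1728) = 4 := by
    exact_mod_cast hrs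
  have hRe : R.ord (jBar 3 - algebraMap Kbar ↥(ModularCurve.modularFunctionFieldBar 3) 1728) = 2 := by omega
  have hR'e : R'.ord (jBar 3 - algebraMap Kbar ↥(ModularCurve.modularFunctionFieldBar 3) 1728) = 2 := by omega
  exact exists_T3_of_fibres hRR genusFF_three (jBar 3) Qi Q0 P1 P3 R R' hQi hQ0 hpoles hP1 hP3
    hzeros hRe hR'e hRR' hrall

end Fermat.Agent.GoodRedSmall
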