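import Mathlib
import Fermat.Agent.Lib.GoodRed.Small.Statements

set_option autoImplicit false
set_option linter.unusedSectionVars false

/-!
# Cluster B / GoodRed (23), piece S1': the Hauptmoduln at every level divisible by `2`, `3`

`F_N ⊆ F_M` for `N ∣ M` inside `LaurentSeries Kbar`, and `j` has the same underlying series at all
levels: transport a Hauptmodul of level `2` (resp. `3`) to level `M`.
-/

noncomputable section

open IntermediateField

namespace Fermat.Agent.GoodRedSmall

open Fermat.Agent.S24 Fermat.Agent.GoodRed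

namespace HauptAt

theorem divisorExpansions_mono {N M : ℕ} (h : N ∣ M) :
    ModularCurve.divisorExpansions N ⊆ ModularCurve.divisorExpansions M := by
  rintro x ⟨d, hd, hdN, rfl⟩
  exact ⟨d, hd, hdN.trans h, rfl⟩

theorem modularFunctionFieldFull_mono {N M : ℕ} (h : N ∣ M) :
    ModularCurve.modularFunctionFieldFull N ≤ ModularCurve.modularFunctionFieldFull M :=
  IntermediateField.adjoin.mono ℚ _ _ (divisorExpansions_mono h)

theorem modularFunctionFieldBar_mono {N M : ℕ} (h : N ∣ M) :
    ModularCurve.modularFunctionFieldBar N ≤ ModularCurve.modularFunctionFieldBar M := by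
  show ModularCurve.laurentBaseChange Kbar (ModularCurve.modularFunctionFieldFull N)
    ≤ ModularCurve.laurentBaseChange Kbar (ModularCurve.modularFunctionFieldFull M)
  rw [ModularCurve.laurentBaseChange, IntermediateField.adjoin_le_iff]
  rintro _ ⟨y, hy, rfl⟩
  exact ModularCurve.coeffEmb_mem_laurentBaseChange Kbar (modularFunctionFieldFull_mono h hy)

/-- the inclusion `F_N → F_M`. -/
def incl {N M : ℕ} (h : N ∣ M) : FBar N →ₐ[Kbar] FBar M :=
  IntermediateField.inclusion (modularFunctionFieldBar_mono h)

theorem coe_incl {N M : ℕ} (h : N ∣ M) (x : FBar N) :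
    ((incl h x : FBar M) : LaurentSeries Kbar) = (x : LaurentSeries Kbar) :=
  IntermediateField.coe_inclusion (modularFunctionFieldBar_mono h) x

theorem incl_jBar {N M : ℕ} [NeZero N] [NeZero M] (h : N ∣ M) : incl h (jBar N) = jBar M := by
  apply Subtype.ext
  rw [coe_incl, coe_jBar, coe_jBar]

end HauptAt

/-- (S1') the Hauptmodul of level `2` at every even level. -/
theorem existsT2At (M : ℕ) [NeZero M] (h : 2 ∣ M) : ExistsT2 → ExistsT2At M := by
  rintro ⟨x, hx⟩
  refine ⟨HauptAt.incl h x, ?_⟩
  unfold IsT2 at hx ⊢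
  have h1 := congrArg (HauptAt.incl h) hx
  rw [map_mul, map_pow, map_pow, map_add, HauptAt.incl_jBar] at h1
  rw [h1, map_ofNat]

/-- (S1') the Hauptmodul of level `3` at every level divisible by `3`. -/
theorem existsT3At (M : ℕ) [NeZero M] (h : 3 ∣ M) : ExistsT3 → ExistsT3At M := by
  rintro ⟨x, hx⟩
  refine ⟨HauptAt.incl h x, ?_⟩
  unfold IsT3 at hx ⊢
  have h1 := congrArg (HauptAt.incl h) hx
  rw [map_mul, map_pow, map_mul, map_pow, map_add, map_add, HauptAt.incl_jBar] at h1
  rw [h1, map_ofNat, map_ofNat]

end Fermat.Agent.GoodRedSmall
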