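import Mathlib
import Fermat.Agent.Lib.GoodRed.Small.Statements
import Fermat.Agent.Lib.GoodRed.Small.PolyOrd
import Fermat.Agent.S24.FundId
import Fermat.Agent.S24.GlobalDatum

/-!
# Cluster B / GoodRed (23), piece S2: `F_M / K(x)` is unramified outside `0, -64, ∞` resp.
`0, -27, ∞`  (helper19)

* `unramT2 M : OrdDvd M → UnramT2 M`
* `unramT3 M : OrdDvd M → UnramT3 M`

Route (blueprint-B-GoodRed-23, (S2)): for a place `v` over `x = c`, with `j₀ = P(c)/Q(c)`,
`ord_v (j - j₀) = m · ord_v (x - c)` where `m` is the multiplicity of `c` as a root of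
`P - j₀ Q` (MULT lemma of `Small/PolyOrd.lean`); `OrdDvd` bounds the left side, so
`ord_v (x - c) = 1`; then the fundamental identity `Σ ord = [F : K(x)]` counts the fibre.
-/

set_option autoImplicit false
set_option synthInstance.maxHeartbeats 400000
set_option maxHeartbeats 800000

noncomputable section

open AlgebraicCurve Polynomial IntermediateField

namespace Fermat.Agent.GoodRedSmall

namespace Unram

section generic

variable {K F : Type} [Field K] [Field F] [Algebra K F]

/-- **MULT for a relation** `j Q(x) = P(x)`: at a zero `v` of `x - c` with `Q(c) ≠ 0` and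
`j₀ Q(c) = P(c)`:  `ord_v (j - j₀) = m · ord_v (x - c)`, `m ≥ 1` the multiplicity of the root `c`
of `P - j₀ Q`. -/
theorem ord_sub_eq_mul (v : Place K F) {x j : F} {c : K} {P Q : K[X]}
    (hrel : j * Polynomial.aeval x Q = Polynomial.aeval x P)
    (hv : 0 < v.ord (x - algebraMap K F c)) (hQ : Q.eval c ≠ 0) (j0 : K)
    (hj0 : j0 * Q.eval c = P.eval c) (hf : P - C j0 * Q ≠ 0) :
    v.ord (j - algebraMap K F j0) =
        ((P - C j0 * Q).rootMultiplicity c : ℤ) * v.ord (x - algebraMap K F c) ∧
      0 < (P - C j0 * Q).rootMultiplicity c := by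
  set f := P - C j0 * Q with hfdef
  have hroot : f.IsRoot c := by
    rw [Polynomial.IsRoot.def, hfdef, eval_sub, eval_mul, eval_C, hj0, sub_self]
  have hm : 0 < f.rootMultiplicity c := (rootMultiplicity_pos hf).mpr hroot
  refine ⟨?_, hm⟩
  have hfx : Polynomial.aeval x f = (j - algebraMap K F j0) * Polynomial.aeval x Q := by
    rw [hfdef, map_sub, map_mul, Polynomial.aeval_C, sub_mul, hrel]
  have hmult := ord_aeval_eq v hv hf
  have hQ0 := ord_aeval_eq_zero v hv hQ
  have hpos : 0 < v.ord (Polynomial.aeval x f) := by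
    rw [hmult]
    have : (0 : ℤ) < (f.rootMultiplicity c : ℤ) := by exact_mod_cast hm
    positivity
  have hne : Polynomial.aeval x f ≠ 0 := by
    intro h0
    rw [h0, v.ord_zero] at hpos
    exact lt_irrefl _ hpos
  rw [hfx] at hne
  have h1 : j - algebraMap K F j0 ≠ 0 := left_ne_zero_of_mul hne
  have h2 : Polynomial.aeval x Q ≠ 0 := right_ne_zero_of_mul hne
  rw [← hmult, hfx, v.ord_mul h1 h2, hQ0, add_zero]

variable [IsAlgClosed K] [CharZero K]

/-- the fundamental identity for an unramified fibre. -/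
theorem card_zeros_eq_finrank {t : F} (h : Fermat.Agent.S24Diff.IsFunctionFieldOver K F t)
    {x : F} (hx : Transcendental K x) (c : K)
    (hord : ∀ v : Place K F, 0 < v.ord (x - algebraMap K F c) →
      v.ord (x - algebraMap K F c) = 1) :
    Nat.card {v : Place K F // 0 < v.ord (x - algebraMap K F c)} = Module.finrank K⟮x⟯ F := by
  classical
  have hfin := Fermat.Agent.S24Fund.finite_zeros h hx c
  have hsum := Fermat.Agent.S24Fund.sum_ord_zeros h hx c
  have h1 : ∑ v ∈ hfin.toFinset, v.ord (x - algebraMap K F c) = ∑ v ∈ hfin.toFinset, (1 : ℤ) := by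
    refine Finset.sum_congr rfl fun v hv => ?_
    rw [Set.Finite.mem_toFinset] at hv
    exact hord v hv
  rw [h1, Finset.sum_const, nsmul_eq_mul, mul_one] at hsum
  have h2 : Nat.card {v : Place K F // 0 < v.ord (x - algebraMap K F c)} = hfin.toFinset.card := by
    rw [← Set.ncard_eq_toFinset_card _ hfin, ← Nat.card_coe_set_eq]
    rfl
  rw [h2]
  exact_mod_cast hsum

end generic

/-- integer arithmetic: `m * o ∣ d`, `d ≤ m`, `o > 0` force `o = 1`. -/
theorem eq_one_of_mul_dvd {m : ℕ} {o d : ℤ} (hd : 0 < d) (hmd : d ≤ m) (ho : 0 < o)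
    (h : (m : ℤ) * o ∣ d) : o = 1 := by
  have hle : (m : ℤ) * o ≤ d := Int.le_of_dvd hd h
  have hm : (0 : ℤ) < m := lt_of_lt_of_le hd hmd
  nlinarith

end Unram

open Fermat.Agent.S24

section T2

variable (M : ℕ) [NeZero M]

theorem Unram.ne_zero_of_isT2 {x : FBar M} (hT : IsT2 x) : x ≠ 0 := by
  intro h0
  unfold IsT2 at hT
  rw [h0] at hT
  norm_num at hT

theorem Unram.transcendental_of_isT2 {x : FBar M} (hT : IsT2 x) : Transcendental Kbar x := by
  intro halg
  apply transcendental_jBar M
  have hx0 := Unram.ne_zero_of_isT2 M hT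
  have hj : jBar M = (x + algebraMap Kbar (FBar M) 256) ^ 3 * (x ^ 2)⁻¹ := by
    unfold IsT2 at hT
    rw [map_ofNat, ← hT]
    field_simp
  rw [hj]
  exact ((halg.add (isAlgebraic_algebraMap _)).pow 3).mul (halg.pow 2).inv

/-- **(S2) for `X₀(2)`**. -/
theorem unramT2 (h : OrdDvd M) : UnramT2 M := by
  intro x hT c hc0 hc64
  have hFF := isFunctionFieldOver_jBar M
  have hx := Unram.transcendental_of_isT2 M hT
  apply Unram.card_zeros_eq_finrank hFF hx c
  intro v hv
  set P : Kbar[X] := (X + C 256) ^ 3 with hP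
  set Q : Kbar[X] := X ^ 2 with hQ
  have hrel : jBar M * Polynomial.aeval x Q = Polynomial.aeval x P := by
    rw [hP, hQ, map_pow, map_pow, map_add, Polynomial.aeval_X, Polynomial.aeval_C, map_ofNat]
    exact hT
  have hQc : Q.eval c ≠ 0 := by
    rw [hQ, eval_pow, eval_X]
    exact pow_ne_zero 2 hc0
  set j0 : Kbar := (c + 256) ^ 3 / c ^ 2 with hj0
  have hj0' : j0 * Q.eval c = P.eval c := by
    rw [hP, hQ, eval_pow, eval_pow, eval_add, eval_X, eval_C, hj0]
    field_simp
  have hmon : (P - C j0 * Q).Monic := by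
    apply Monic.sub_of_left ((monic_X_add_C (256 : Kbar)).pow 3)
    rw [hQ, degree_pow, degree_X_add_C]
    refine lt_of_le_of_lt (degree_C_mul_X_pow_le 2 j0) ?_
    norm_num
  have hf : P - C j0 * Q ≠ 0 := hmon.ne_zero
  obtain ⟨hord, hm⟩ := Unram.ord_sub_eq_mul v hrel hv hQc j0 hj0' hf
  have hjpos : 0 < v.ord (jBar M - algebraMap Kbar (FBar M) j0) := by
    rw [hord]
    have : (0 : ℤ) < ((P - C j0 * Q).rootMultiplicity c : ℤ) := by exact_mod_cast hm
    positivity
  obtain ⟨h0, h1728, hgen⟩ := h j0 v hjpos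
  have hc2 : c ^ 2 ≠ 0 := pow_ne_zero 2 hc0
  by_cases hj00 : j0 = 0
  · have hc : c = -256 := by
      rw [hj0, div_eq_zero_iff] at hj00
      rcases hj00 with h1 | h1
      · have := pow_eq_zero_iff (n := 3) (by norm_num) |>.mp h1
        linear_combination this
      · exact absurd h1 hc2
    have h3 : 3 ≤ (P - C j0 * Q).rootMultiplicity c := by
      rw [le_rootMultiplicity_iff hf, hj00, hc, hP]
      refine ⟨1, ?_⟩
      rw [map_zero, zero_mul, sub_zero, mul_one, map_neg, sub_neg_eq_add]
    have hd := h0 hj00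
    rw [hord] at hd
    exact Unram.eq_one_of_mul_dvd (by norm_num) (by exact_mod_cast h3) hv hd
  by_cases hj01 : j0 = 1728
  · have hrel2 : (c + 256) ^ 3 = 1728 * c ^ 2 := by
      rw [hj0, div_eq_iff hc2] at hj01
      exact hj01
    have hprod : (c - 512) ^ 2 * (c + 64) = 0 := by linear_combination hrel2
    have hc : c = 512 := by
      rcases mul_eq_zero.mp hprod with h1 | h1
      · have := pow_eq_zero_iff (n := 2) (by norm_num) |>.mp h1
        linear_combination this
      · exact absurd (by linear_combination h1) hc64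
    have h2 : 2 ≤ (P - C j0 * Q).rootMultiplicity c := by
      rw [le_rootMultiplicity_iff hf, hj01, hc, hP, hQ]
      refine ⟨X + C 64, ?_⟩
      simp only [map_ofNat]
      ring
    have hd := h1728 hj01
    rw [hord] at hd
    exact Unram.eq_one_of_mul_dvd (by norm_num) (by exact_mod_cast h2) hv hd
  · have h1 := hgen hj00 hj01
    rw [hord] at h1
    exact Unram.eq_one_of_mul_dvd one_pos (by exact_mod_cast hm) hv (by rw [h1])

end T2

section T3

variable (M : ℕ) [NeZero M]

theorem Unram.ne_zero_of_isT3 {x : FBar M} (hT : IsT3 x) : x ≠ 0 := by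
  intro h0
  unfold IsT3 at hT
  rw [h0] at hT
  norm_num at hT

theorem Unram.transcendental_of_isT3 {x : FBar M} (hT : IsT3 x) : Transcendental Kbar x := by
  intro halg
  apply transcendental_jBar M
  have hx0 := Unram.ne_zero_of_isT3 M hT
  have hj : jBar M = (x + algebraMap Kbar (FBar M) 27) *
      (x + algebraMap Kbar (FBar M) 243) ^ 3 * (x ^ 3)⁻¹ := by
    unfold IsT3 at hT
    rw [map_ofNat, map_ofNat, ← hT]
    field_simp
  rw [hj]
  exact ((halg.add (isAlgebraic_algebraMap _)).mul
    ((halg.add (isAlgebraic_algebraMap _)).pow 3)).mul (halg.pow 3).inv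

/-- **(S2) for `X₀(3)`**. -/
theorem unramT3 (h : OrdDvd M) : UnramT3 M := by
  intro x hT c hc0 hc27
  have hFF := isFunctionFieldOver_jBar M
  have hx := Unram.transcendental_of_isT3 M hT
  apply Unram.card_zeros_eq_finrank hFF hx c
  intro v hv
  set P : Kbar[X] := (X + C 27) * (X + C 243) ^ 3 with hP
  set Q : Kbar[X] := X ^ 3 with hQ
  have hrel : jBar M * Polynomial.aeval x Q = Polynomial.aeval x P := by
    rw [hP, hQ, map_mul, map_pow, map_pow, map_add, map_add, Polynomial.aeval_X,
      Polynomial.aeval_C, Polynomial.aeval_C, map_ofNat, map_ofNat]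
    exact hT
  have hQc : Q.eval c ≠ 0 := by
    rw [hQ, eval_pow, eval_X]
    exact pow_ne_zero 3 hc0
  set j0 : Kbar := (c + 27) * (c + 243) ^ 3 / c ^ 3 with hj0
  have hj0' : j0 * Q.eval c = P.eval c := by
    rw [hP, hQ, eval_mul, eval_pow, eval_pow, eval_add, eval_add, eval_X, eval_C, eval_C, hj0]
    field_simp
  have hmon : (P - C j0 * Q).Monic := by
    apply Monic.sub_of_left
      ((monic_X_add_C (27 : Kbar)).mul ((monic_X_add_C (243 : Kbar)).pow 3))
    have hdegP : ((X + C 27) * (X + C 243) ^ 3 : Kbar[X]).degree = 4 := by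
      rw [degree_mul, degree_pow, degree_X_add_C, degree_X_add_C]
      norm_num
    rw [hQ, hdegP]
    refine lt_of_le_of_lt (degree_C_mul_X_pow_le 3 j0) ?_
    norm_num
  have hf : P - C j0 * Q ≠ 0 := hmon.ne_zero
  obtain ⟨hord, hm⟩ := Unram.ord_sub_eq_mul v hrel hv hQc j0 hj0' hf
  have hjpos : 0 < v.ord (jBar M - algebraMap Kbar (FBar M) j0) := by
    rw [hord]
    have : (0 : ℤ) < ((P - C j0 * Q).rootMultiplicity c : ℤ) := by exact_mod_cast hm
    positivity
  obtain ⟨h0, h1728, hgen⟩ := h j0 v hjpos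
  have hc3 : c ^ 3 ≠ 0 := pow_ne_zero 3 hc0
  by_cases hj00 : j0 = 0
  · have hc : c = -243 := by
      rw [hj0, div_eq_zero_iff] at hj00
      rcases hj00 with h1 | h1
      · rcases mul_eq_zero.mp h1 with h2 | h2
        · exact absurd (by linear_combination h2) hc27
        · have := pow_eq_zero_iff (n := 3) (by norm_num) |>.mp h2
          linear_combination this
      · exact absurd h1 hc3
    have h3 : 3 ≤ (P - C j0 * Q).rootMultiplicity c := by
      rw [le_rootMultiplicity_iff hf, hj00, hc, hP]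
      refine ⟨X + C 27, ?_⟩
      rw [map_zero, zero_mul, sub_zero, map_neg, sub_neg_eq_add]
      ring
    have hd := h0 hj00
    rw [hord] at hd
    exact Unram.eq_one_of_mul_dvd (by norm_num) (by exact_mod_cast h3) hv hd
  by_cases hj01 : j0 = 1728
  · have hrel2 : (c + 27) * (c + 243) ^ 3 = 1728 * c ^ 3 := by
      rw [hj0, div_eq_iff hc3] at hj01
      exact hj01
    have hsq : (c ^ 2 - 486 * c - 19683) ^ 2 = 0 := by linear_combination hrel2
    have hH : c ^ 2 - 486 * c - 19683 = 0 := pow_eq_zero_iff (n := 2) (by norm_num) |>.mp hsq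
    have hPQ : P - C j0 * Q = (X ^ 2 - C 486 * X - C 19683) ^ 2 := by
      rw [hj01, hP, hQ]
      simp only [map_ofNat]
      ring
    have hdvd : (X - C c) ∣ (X ^ 2 - C 486 * X - C 19683 : Kbar[X]) := by
      rw [dvd_iff_isRoot, Polynomial.IsRoot.def]
      simp only [eval_sub, eval_mul, eval_pow, eval_X, eval_C]
      exact hH
    have h2 : 2 ≤ (P - C j0 * Q).rootMultiplicity c := by
      rw [le_rootMultiplicity_iff hf, hPQ]
      exact pow_dvd_pow_of_dvd hdvd 2
    have hd := h1728 hj01
    rw [hord] at hd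
    exact Unram.eq_one_of_mul_dvd (by norm_num) (by exact_mod_cast h2) hv hd
  · have h1 := hgen hj00 hj01
    rw [hord] at h1
    exact Unram.eq_one_of_mul_dvd one_pos (by exact_mod_cast hm) hv (by rw [h1])

end T3

end Fermat.Agent.GoodRedSmall
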