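import Mathlib
import Fermat.Agent.Lib.GoodRed.ModularData
import Fermat.Agent.Lib.GoodRed.Final
import Fermat.Agent.Lib.GoodRed.Genus
import Fermat.Agent.Lib.GoodRed.Small.Branch
import Fermat.Agent.Lib.GoodRed.Small.HauptAt
import Fermat.Agent.Lib.GoodRed.Small.Haupt2
import Fermat.Agent.Lib.GoodRed.Small.Haupt3
import Fermat.Agent.Lib.GoodRed.Small.Unram
import Fermat.Agent.Lib.GoodRed.Small.OrdDvd
import Fermat.Agent.Lib.GenusEq.GenusFM
import Fermat.Agent.Lib.IgusaDeg.Deg

/-!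
# Cluster B / GoodRed (23): ASSEMBLY (helper18)

The genus inequality `g(F_N) ≤ g(F_{N,k})` at a place over `ℓ ∤ N`, for the primes that the
chain with `x = j` cannot treat:

* `genusFF_le_of_even` : `2 ∣ N`, `ℓ ≠ 2` (in particular `ℓ = 3`), with `x` = the Hauptmodul of
  `X₀(2)`, branch values `0, -64, ∞`;
* `genusFF_le_of_three_dvd` : `3 ∣ N`, `ℓ ≠ 3` (in particular `ℓ = 2`), with `x` = the Hauptmodul
  of `X₀(3)`, branch values `0, -27, ∞`.
-/

set_option autoImplicit false
set_option linter.unusedSectionVars false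
set_option linter.style.haveILetI false

noncomputable section

namespace Fermat.Agent.GoodRedSmall

open AlgebraicCurve ModularCurve IntermediateField
open Fermat.Agent.S24 Fermat.Agent.GoodRed

namespace Final23

variable {ℓ : ℕ} {A : ValuationSubring Kbar}

/-- a natural number prime to `ℓ` is nonzero in the residue field. -/
theorem natCast_residue_ne_zero (hA : A.LiesOverPrime ℓ) {d : ℕ} (hd : d.Coprime ℓ) :
    ((d : ℕ) : IsLocalRing.ResidueField A) ≠ 0 := by
  have hu := Fermat.Agent.GaussVal.natCast_isUnit_of_coprime A ℓ hA hd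
  have h : IsLocalRing.residue A ((d : ℕ) : A) ≠ 0 := by
    rw [Ne, IsLocalRing.residue_eq_zero_iff, IsLocalRing.mem_maximalIdeal, mem_nonunits_iff,
      not_not]
    exact hu
  rwa [map_natCast] at h

/-- the inverse of a natural number prime to `ℓ` lies in `A`. -/
theorem inv_natCast_mem (hA : A.LiesOverPrime ℓ) {d : ℕ} (hd : d.Coprime ℓ) :
    ((d : ℕ) : Kbar)⁻¹ ∈ A := by
  have hu := Fermat.Agent.GaussVal.natCast_isUnit_of_coprime A ℓ hA hd
  obtain ⟨u, hu⟩ := hu
  have h1 : ((u⁻¹ : Aˣ) : A) * ((d : ℕ) : A) = 1 := by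
    rw [← hu]
    exact u.inv_mul
  have h2 : (((u⁻¹ : Aˣ) : A) : Kbar) * ((d : ℕ) : Kbar) = 1 := congrArg Subtype.val h1
  have h3 : ((d : ℕ) : Kbar)⁻¹ = (((u⁻¹ : Aˣ) : A) : Kbar) := by
    rw [eq_comm]
    exact eq_inv_of_mul_eq_one_left h2
  rw [h3]
  exact ((u⁻¹ : Aˣ) : A).2

end Final23

set_option synthInstance.maxHeartbeats 400000 in
set_option maxHeartbeats 1000000 in
/-- **GoodRed (23), even level, `ℓ` odd**: `g(F_N) ≤ g(F_{N,k})`. -/
theorem genusFF_le_of_even (N : ℕ) [NeZero N] (h2N : 2 ∣ N) {ℓ : ℕ} (hℓ : ℓ.Prime)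
    (hℓ2 : ℓ ≠ 2) {A : ValuationSubring Kbar} (hA : A.LiesOverPrime ℓ) (hℓN : ¬ ℓ ∣ N)
    (hdegk : Module.finrank
        (IntermediateField.adjoin (IsLocalRing.ResidueField A)
          {(modularRedModel N hℓ hA (rangeAt N hℓ hA hℓN)).xbar})
        ↥(modularFunctionFieldFullC (IsLocalRing.ResidueField A) N)
          = (CongruenceSubgroup.Gamma0 N).index)
    (hsep : Algebra.IsSeparable
        (IntermediateField.adjoin (IsLocalRing.ResidueField A)
          {(modularRedModel N hℓ hA (rangeAt N hℓ hA hℓN)).xbar})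
        ↥(modularFunctionFieldFullC (IsLocalRing.ResidueField A) N))
    (hk : Fermat.Agent.RR.IsRRField (IsLocalRing.ResidueField A)
      ↥(modularFunctionFieldFullC (IsLocalRing.ResidueField A) N)) :
    genusFF Kbar (FBar N) ≤
      genusFF (IsLocalRing.ResidueField A)
        ↥(modularFunctionFieldFullC (IsLocalRing.ResidueField A) N) := by
  haveI : IsAlgClosed (IsLocalRing.ResidueField A) :=
    Fermat.Agent.FrobTrace.isAlgClosed_residueField A
  have hdeg := degData_modularRedModel N hℓ hA (rangeAt N hℓ hA hℓN) hdegk hsep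
  have hcop : Nat.Coprime 2 ℓ := (Nat.coprime_primes Nat.prime_two hℓ).mpr (Ne.symm hℓ2)
  have h2 : (2 : IsLocalRing.ResidueField A) ≠ 0 := by
    have := Final23.natCast_residue_ne_zero hA hcop
    exact_mod_cast this
  obtain ⟨x, hxT⟩ := existsT2At N h2N existsT2
  obtain ⟨hx, htr, n', hdeg', BD, hS⟩ :=
    branchT2 N (unramT2 N (ordDvd N)) _ _
      (modularRedModel N hℓ hA (rangeAt N hℓ hA hℓN)) _ rfl hdeg h2 x hxT
  have hfib := fibreBound_of_branchData _ n' hdeg' BD.toA
  have hinvS : ∀ c ∈ BD.S, c ≠ 0 →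
      c⁻¹ ∈ (swapX (modularRedModel N hℓ hA (rangeAt N hℓ hA hℓN)) x hx htr).A := by
    intro c hc hc0
    rcases (hS c).mp hc with h | h
    · exact absurd h hc0
    · have h64 : Nat.Coprime 64 ℓ := by
        have e : (64 : ℕ) = 2 ^ 6 := by norm_num
        rw [e]
        exact Nat.Coprime.pow_left _ hcop
      have hmem := Final23.inv_natCast_mem hA h64
      show c⁻¹ ∈ A
      have e : c⁻¹ = -(((64 : ℕ) : Kbar)⁻¹) := by
        rw [h]
        push_cast
        rw [inv_neg]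
      rw [e]
      exact neg_mem hmem
  have hinf := (fibreBound_inv _ n' hdeg' BD hinvS).at_infty
  exact genusFF_le_of_fibreBound _ n' hdeg' BD
    (Fermat.Agent.GenusEq.isRRField_modularFunctionFieldBar N) hk hfib hinf

set_option synthInstance.maxHeartbeats 400000 in
set_option maxHeartbeats 1000000 in
/-- **GoodRed (23), level divisible by `3`, `ℓ ≠ 3`**: `g(F_N) ≤ g(F_{N,k})`. -/
theorem genusFF_le_of_three_dvd (N : ℕ) [NeZero N] (h3N : 3 ∣ N) {ℓ : ℕ} (hℓ : ℓ.Prime)
    (hℓ3 : ℓ ≠ 3) {A : ValuationSubring Kbar} (hA : A.LiesOverPrime ℓ) (hℓN : ¬ ℓ ∣ N)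
    (hdegk : Module.finrank
        (IntermediateField.adjoin (IsLocalRing.ResidueField A)
          {(modularRedModel N hℓ hA (rangeAt N hℓ hA hℓN)).xbar})
        ↥(modularFunctionFieldFullC (IsLocalRing.ResidueField A) N)
          = (CongruenceSubgroup.Gamma0 N).index)
    (hsep : Algebra.IsSeparable
        (IntermediateField.adjoin (IsLocalRing.ResidueField A)
          {(modularRedModel N hℓ hA (rangeAt N hℓ hA hℓN)).xbar})
        ↥(modularFunctionFieldFullC (IsLocalRing.ResidueField A) N))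
    (hk : Fermat.Agent.RR.IsRRField (IsLocalRing.ResidueField A)
      ↥(modularFunctionFieldFullC (IsLocalRing.ResidueField A) N)) :
    genusFF Kbar (FBar N) ≤
      genusFF (IsLocalRing.ResidueField A)
        ↥(modularFunctionFieldFullC (IsLocalRing.ResidueField A) N) := by
  haveI : IsAlgClosed (IsLocalRing.ResidueField A) :=
    Fermat.Agent.FrobTrace.isAlgClosed_residueField A
  have hdeg := degData_modularRedModel N hℓ hA (rangeAt N hℓ hA hℓN) hdegk hsep
  have hcop : Nat.Coprime 3 ℓ := (Nat.coprime_primes Nat.prime_three hℓ).mpr (Ne.symm hℓ3)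
  have h3 : (3 : IsLocalRing.ResidueField A) ≠ 0 := by
    have := Final23.natCast_residue_ne_zero hA hcop
    exact_mod_cast this
  obtain ⟨x, hxT⟩ := existsT3At N h3N existsT3
  obtain ⟨hx, htr, n', hdeg', BD, hS⟩ :=
    branchT3 N (unramT3 N (ordDvd N)) _ _
      (modularRedModel N hℓ hA (rangeAt N hℓ hA hℓN)) _ rfl hdeg h3 x hxT
  have hfib := fibreBound_of_branchData _ n' hdeg' BD.toA
  have hinvS : ∀ c ∈ BD.S, c ≠ 0 →
      c⁻¹ ∈ (swapX (modularRedModel N hℓ hA (rangeAt N hℓ hA hℓN)) x hx htr).A := by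
    intro c hc hc0
    rcases (hS c).mp hc with h | h
    · exact absurd h hc0
    · have h27 : Nat.Coprime 27 ℓ := by
        have e : (27 : ℕ) = 3 ^ 3 := by norm_num
        rw [e]
        exact Nat.Coprime.pow_left _ hcop
      have hmem := Final23.inv_natCast_mem hA h27
      show c⁻¹ ∈ A
      have e : c⁻¹ = -(((27 : ℕ) : Kbar)⁻¹) := by
        rw [h]
        push_cast
        rw [inv_neg]
      rw [e]
      exact neg_mem hmem
  have hinf := (fibreBound_inv _ n' hdeg' BD hinvS).at_infty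
  exact genusFF_le_of_fibreBound _ n' hdeg' BD
    (Fermat.Agent.GenusEq.isRRField_modularFunctionFieldBar N) hk hfib hinf

set_option synthInstance.maxHeartbeats 400000 in
set_option maxHeartbeats 1000000 in
/-- **GoodRed (23), even level, `ℓ` odd, UNCONDITIONAL**: `g(F_N) ≤ g(F_{N,k})`
(degree data: helper94's `IgusaDeg.finrank_xbar`, `IgusaDeg.isSeparable_xbar`;
Riemann-Roch for `F_{N,k}`: helper19's `RRMod.isRRField_fullC'`). -/
theorem genusFF_le_of_even' (N : ℕ) [NeZero N] (h2N : 2 ∣ N) {ℓ : ℕ} (hℓ : ℓ.Prime)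
    (hℓ2 : ℓ ≠ 2) {A : ValuationSubring Kbar} (hA : A.LiesOverPrime ℓ) (hℓN : ¬ ℓ ∣ N) :
    genusFF Kbar (FBar N) ≤
      genusFF (IsLocalRing.ResidueField A)
        ↥(modularFunctionFieldFullC (IsLocalRing.ResidueField A) N) := by
  haveI : IsAlgClosed (IsLocalRing.ResidueField A) :=
    Fermat.Agent.FrobTrace.isAlgClosed_residueField A
  exact genusFF_le_of_even N h2N hℓ hℓ2 hA hℓN
    (Fermat.Agent.IgusaDeg.finrank_xbar N hℓ hA (rangeAt N hℓ hA hℓN) hℓN)
    (Fermat.Agent.IgusaDeg.isSeparable_xbar N hℓ hA (rangeAt N hℓ hA hℓN))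
    (Fermat.Agent.RRMod.isRRField_fullC' (IsLocalRing.ResidueField A) N)

set_option synthInstance.maxHeartbeats 400000 in
set_option maxHeartbeats 1000000 in
/-- **GoodRed (23), level divisible by `3`, `ℓ ≠ 3`, UNCONDITIONAL**: `g(F_N) ≤ g(F_{N,k})`. -/
theorem genusFF_le_of_three_dvd' (N : ℕ) [NeZero N] (h3N : 3 ∣ N) {ℓ : ℕ} (hℓ : ℓ.Prime)
    (hℓ3 : ℓ ≠ 3) {A : ValuationSubring Kbar} (hA : A.LiesOverPrime ℓ) (hℓN : ¬ ℓ ∣ N) :
    genusFF Kbar (FBar N) ≤
      genusFF (IsLocalRing.ResidueField A)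
        ↥(modularFunctionFieldFullC (IsLocalRing.ResidueField A) N) := by
  haveI : IsAlgClosed (IsLocalRing.ResidueField A) :=
    Fermat.Agent.FrobTrace.isAlgClosed_residueField A
  exact genusFF_le_of_three_dvd N h3N hℓ hℓ3 hA hℓN
    (Fermat.Agent.IgusaDeg.finrank_xbar N hℓ hA (rangeAt N hℓ hA hℓN) hℓN)
    (Fermat.Agent.IgusaDeg.isSeparable_xbar N hℓ hA (rangeAt N hℓ hA hℓN))
    (Fermat.Agent.RRMod.isRRField_fullC' (IsLocalRing.ResidueField A) N)

end Fermat.Agent.GoodRedSmall
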